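/-
Programme DS (S48), brick DS-G (helper55), part G1.

Semisimple subgroups `G` of `GL₂(𝔽_ℓ)` of order divisible by `ℓ` are big: `ℓ² (ℓ - 1) ≤ |G|`.

An element `g` of order `ℓ` is unipotent, `g = 1 + n` with `n² = 0`, `n ≠ 0`.  Semisimplicity gives
`h₀ ∈ G` which does not preserve the line `ker n`, i.e. `n h₀ n ≠ 0`.  With
`n' = h₀ n h₀⁻¹` the `ℓ² (ℓ - 1)` elements `(1 + x n) (1 + y n') (1 + z n)` (`y ≠ 0`) of `G` are
pairwise distinct.
-/
import Mathlib

set_option autoImplicit false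
set_option linter.unusedSimpArgs false

namespace Fermat.Agent.DS.GL2.Transvections

open Matrix

/-- Semisimplicity of the tautological representation of a subgroup of `GL₂(K)`: every common
eigenvector `u` of `G` (i.e. every `G`-stable line) has a complementary common eigenvector. -/
def IsSemisimpleSubgroup {K : Type*} [Field K] (G : Subgroup (GL (Fin 2) K)) : Prop :=
  ∀ u : Fin 2 → K, u ≠ 0 →
    (∀ g ∈ G, ∃ c : K, (g : Matrix (Fin 2) (Fin 2) K) *ᵥ u = c • u) →
    ∃ v : Fin 2 → K, (¬ ∃ c : K, v = c • u) ∧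
      ∀ g ∈ G, ∃ c : K, (g : Matrix (Fin 2) (Fin 2) K) *ᵥ v = c • v

section field

variable {K : Type*} [Field K]

/-- Cayley–Hamilton for `2 × 2` matrices, written out. -/
theorem mul_self_eq (n : Matrix (Fin 2) (Fin 2) K) :
    n * n = n.trace • n - n.det • (1 : Matrix (Fin 2) (Fin 2) K) := by
  ext i j
  fin_cases i <;> fin_cases j <;>
    simp [Matrix.mul_apply, Fin.sum_univ_two, Matrix.trace_fin_two, Matrix.det_fin_two] <;> ring

/-- For a singular `2 × 2` matrix `n` one has `n A n = tr(n A) n`. -/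
theorem mul_mul_self_of_det (n A : Matrix (Fin 2) (Fin 2) K) (hdet : n.det = 0) :
    n * A * n = (n * A).trace • n := by
  rw [Matrix.det_fin_two] at hdet
  ext i j
  fin_cases i <;> fin_cases j <;>
    simp [Matrix.mul_apply, Fin.sum_univ_two, Matrix.trace_fin_two]
  · linear_combination (-(A 1 1)) * hdet
  · linear_combination (A 0 1) * hdet
  · linear_combination (A 1 0) * hdet
  · linear_combination (-A 0 0) * hdet

/-- A square-zero `2 × 2` matrix over a field is singular. -/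
theorem det_eq_zero_of_sq (n : Matrix (Fin 2) (Fin 2) K) (hn : n * n = 0) : n.det = 0 := by
  have h : n.det * n.det = 0 := by rw [← Matrix.det_mul, hn, Matrix.det_zero]
  exact mul_self_eq_zero.mp h

/-- The inverse of an invertible `2 × 2` matrix. -/
theorem coe_inv_eq (A : GL (Fin 2) K) :
    ((A⁻¹ : GL (Fin 2) K) : Matrix (Fin 2) (Fin 2) K) =
      (A : Matrix (Fin 2) (Fin 2) K).det⁻¹ •
        ((A : Matrix (Fin 2) (Fin 2) K).trace • (1 : Matrix (Fin 2) (Fin 2) K) - A) := by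
  have hdet : (A : Matrix (Fin 2) (Fin 2) K).det ≠ 0 := by
    have := Matrix.GeneralLinearGroup.det_ne_zero A
    simpa using this
  set M : Matrix (Fin 2) (Fin 2) K := (A : Matrix (Fin 2) (Fin 2) K) with hM
  have h1 : M * (M.det⁻¹ • (M.trace • (1 : Matrix (Fin 2) (Fin 2) K) - M)) = 1 := by
    rw [mul_smul_comm, mul_sub, mul_self_eq M, mul_smul_comm, mul_one]
    rw [sub_sub_cancel, smul_smul, inv_mul_cancel₀ hdet, one_smul]
  have h2 : ((A⁻¹ : GL (Fin 2) K) : Matrix (Fin 2) (Fin 2) K) * M = 1 := by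
    rw [hM, ← Units.val_mul, inv_mul_cancel, Units.val_one]
  calc ((A⁻¹ : GL (Fin 2) K) : Matrix (Fin 2) (Fin 2) K)
      = ((A⁻¹ : GL (Fin 2) K) : Matrix (Fin 2) (Fin 2) K) *
          (M * (M.det⁻¹ • (M.trace • (1 : Matrix (Fin 2) (Fin 2) K) - M))) := by
        rw [h1, mul_one]
    _ = M.det⁻¹ • (M.trace • (1 : Matrix (Fin 2) (Fin 2) K) - M) := by
        rw [← mul_assoc, h2, one_mul]

/-- the product of three "transvections" -/
def triple (n n' : Matrix (Fin 2) (Fin 2) K) (x y z : K) : Matrix (Fin 2) (Fin 2) K :=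
  (1 + x • n) * (1 + y • n') * (1 + z • n)

variable {n n' : Matrix (Fin 2) (Fin 2) K} {τ : K}

theorem mul_one_add (hn : n * n = 0) (x : K) : n * (1 + x • n) = n := by
  rw [mul_add, mul_one, mul_smul_comm, hn, smul_zero, add_zero]

theorem one_add_mul (hn : n * n = 0) (x : K) : (1 + x • n) * n = n := by
  rw [add_mul, one_mul, smul_mul_assoc, hn, smul_zero, add_zero]

theorem sq_mul (hn : n * n = 0) (X : Matrix (Fin 2) (Fin 2) K) : n * (n * X) = 0 := by
  rw [← mul_assoc, hn, zero_mul]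

theorem mul_mul_self' (h : n * n' * n = τ • n) : n * (n' * n) = τ • n := by
  rw [← mul_assoc, h]

theorem mul_mul_self_mul (h : n * n' * n = τ • n) (X : Matrix (Fin 2) (Fin 2) K) :
    n * (n' * (n * X)) = τ • (n * X) := by
  rw [← mul_assoc, ← mul_assoc, h, smul_mul_assoc]

theorem mul_triple_mul (hn : n * n = 0) (h : n * n' * n = τ • n) (x y z : K) :
    n * triple n n' x y z * n = (y * τ) • n := by
  simp only [triple, mul_add, add_mul, mul_one, one_mul, smul_mul_assoc, mul_smul_comm, mul_assoc,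
    hn, sq_mul hn, mul_mul_self' h, mul_mul_self_mul h, smul_zero, add_zero, zero_add, smul_add,
    smul_smul, mul_zero, zero_mul]

theorem mul_triple (hn : n * n = 0) (h : n * n' * n = τ • n) (x y z : K) :
    n * triple n n' x y z = n + y • (n * n') + (y * z * τ) • n := by
  simp only [triple, mul_add, add_mul, mul_one, one_mul, smul_mul_assoc, mul_smul_comm, mul_assoc,
    hn, sq_mul hn, mul_mul_self' h, mul_mul_self_mul h, smul_zero, add_zero, zero_add, smul_add,
    smul_smul, mul_zero, zero_mul]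
  module

theorem triple_mul (hn : n * n = 0) (h : n * n' * n = τ • n) (x y z : K) :
    triple n n' x y z * n = n + y • (n' * n) + (x * y * τ) • n := by
  simp only [triple, mul_add, add_mul, mul_one, one_mul, smul_mul_assoc, mul_smul_comm, mul_assoc,
    hn, sq_mul hn, mul_mul_self' h, mul_mul_self_mul h, smul_zero, add_zero, zero_add, smul_add,
    smul_smul, mul_zero, zero_mul]
  module

theorem smul_left_cancel_of_ne {a b : K} (hn0 : n ≠ 0) (h : a • n = b • n) : a = b := by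
  have h' : (a - b) • n = 0 := by rw [sub_smul, h, sub_self]
  rcases smul_eq_zero.mp h' with h0 | h0
  · exact sub_eq_zero.mp h0
  · exact absurd h0 hn0

/-- The parameters `x, y, z` can be read off from the product, as long as `y ≠ 0`. -/
theorem triple_injective (hn : n * n = 0) (hn0 : n ≠ 0) (hτ : τ ≠ 0) (h : n * n' * n = τ • n)
    {x y z x₁ y₁ z₁ : K} (hy : y ≠ 0)
    (hW : triple n n' x y z = triple n n' x₁ y₁ z₁) : x = x₁ ∧ y = y₁ ∧ z = z₁ := by
  have hy1 : y = y₁ := by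
    have h1 := mul_triple_mul hn h x y z
    rw [hW, mul_triple_mul hn h] at h1
    have := smul_left_cancel_of_ne hn0 h1
    exact (mul_right_cancel₀ hτ this).symm
  subst hy1
  refine ⟨?_, rfl, ?_⟩
  · have h1 := triple_mul hn h x y z
    rw [hW, triple_mul hn h] at h1
    have h2 := add_left_cancel h1
    have := smul_left_cancel_of_ne hn0 h2
    have h3 : x₁ * (y * τ) = x * (y * τ) := by linear_combination this
    exact (mul_right_cancel₀ (mul_ne_zero hy hτ) h3).symm
  · have h1 := mul_triple hn h x y z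
    rw [hW, mul_triple hn h] at h1
    have h2 := add_left_cancel h1
    have := smul_left_cancel_of_ne hn0 h2
    have h3 : z₁ * (y * τ) = z * (y * τ) := by linear_combination this
    exact (mul_right_cancel₀ (mul_ne_zero hy hτ) h3).symm

/-- Conjugating a square-zero `n` by `h₀` with `n h₀ n ≠ 0` gives `n'` with `n n' n = τ n`,
`τ ≠ 0`. -/
theorem exists_tau (hn : n * n = 0) (h₀ : GL (Fin 2) K)
    (hh : n * (h₀ : Matrix (Fin 2) (Fin 2) K) * n ≠ 0) :
    ∃ τ : K, τ ≠ 0 ∧
      n * ((h₀ : Matrix (Fin 2) (Fin 2) K) * n * ((h₀⁻¹ : GL (Fin 2) K) : Matrix (Fin 2) (Fin 2) K))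
        * n = τ • n := by
  have hdet := det_eq_zero_of_sq n hn
  set A : Matrix (Fin 2) (Fin 2) K := (h₀ : Matrix (Fin 2) (Fin 2) K) with hA
  have hAdet : A.det ≠ 0 := by
    have := Matrix.GeneralLinearGroup.det_ne_zero h₀
    simpa using this
  have h1 : n * A * n = (n * A).trace • n := mul_mul_self_of_det n A hdet
  set σ := (n * A).trace with hσ
  have hσ0 : σ ≠ 0 := by
    intro h0
    rw [h0, zero_smul] at h1
    exact hh h1
  refine ⟨-(σ * σ * A.det⁻¹), ?_, ?_⟩
  · exact neg_ne_zero.mpr (mul_ne_zero (mul_ne_zero hσ0 hσ0) (inv_ne_zero hAdet))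
  · rw [coe_inv_eq h₀, ← hA]
    have e1 : n * (A * n * (A.det⁻¹ • (A.trace • (1 : Matrix (Fin 2) (Fin 2) K) - A))) * n
        = A.det⁻¹ • ((n * A * n) * (A.trace • (1 : Matrix (Fin 2) (Fin 2) K) - A) * n) := by
      rw [mul_smul_comm, mul_smul_comm, smul_mul_assoc, mul_assoc n A n, mul_assoc n (A * n)]
    have e2 : n * (A.trace • (1 : Matrix (Fin 2) (Fin 2) K) - A) * n = -(σ • n) := by
      rw [mul_sub, sub_mul, mul_smul_comm, mul_one, smul_mul_assoc, hn, smul_zero, zero_sub, h1]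
    rw [e1, h1, smul_mul_assoc, smul_mul_assoc, e2]
    module

end field

section kernel

variable {K : Type*} [Field K]

/-- The kernel of a non-zero `2 × 2` matrix is at most a line. -/
theorem parallel_of_mulVec_eq_zero {n : Matrix (Fin 2) (Fin 2) K} (hn0 : n ≠ 0)
    {u x : Fin 2 → K} (hu0 : u ≠ 0) (hu : n *ᵥ u = 0) (hx : n *ᵥ x = 0) :
    ∃ c : K, x = c • u := by
  have hdet : x 0 * u 1 - x 1 * u 0 = 0 := by
    by_contra hne
    apply hn0
    have hu' : ∀ i, n i 0 * u 0 + n i 1 * u 1 = 0 := fun i => by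
      have := congrFun hu i
      simpa [Matrix.mulVec, dotProduct, Fin.sum_univ_two] using this
    have hx' : ∀ i, n i 0 * x 0 + n i 1 * x 1 = 0 := fun i => by
      have := congrFun hx i
      simpa [Matrix.mulVec, dotProduct, Fin.sum_univ_two] using this
    have h0 : ∀ i, n i 0 = 0 := fun i => by
      have : n i 0 * (x 0 * u 1 - x 1 * u 0) = 0 := by
        linear_combination u 1 * hx' i - x 1 * hu' i
      rcases mul_eq_zero.mp this with h | h
      · exact h
      · exact absurd h hne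
    have h1 : ∀ i, n i 1 = 0 := fun i => by
      have : n i 1 * (x 0 * u 1 - x 1 * u 0) = 0 := by
        linear_combination -(u 0) * hx' i + x 0 * hu' i
      rcases mul_eq_zero.mp this with h | h
      · exact h
      · exact absurd h hne
    ext i j
    fin_cases j
    · exact h0 i
    · exact h1 i
  by_cases h0 : u 0 = 0
  · have h1 : u 1 ≠ 0 := by
      intro h1
      apply hu0
      ext i
      fin_cases i
      · exact h0
      · exact h1
    refine ⟨x 1 / u 1, ?_⟩
    ext i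
    fin_cases i
    · simp only [Fin.zero_eta, Pi.smul_apply, smul_eq_mul, h0, mul_zero]
      rw [h0, mul_zero, sub_zero] at hdet
      rcases mul_eq_zero.mp hdet with h | h
      · exact h
      · exact absurd h h1
    · simp only [Fin.mk_one, Pi.smul_apply, smul_eq_mul]
      field_simp
  · refine ⟨x 0 / u 0, ?_⟩
    ext i
    fin_cases i
    · simp only [Fin.zero_eta, Pi.smul_apply, smul_eq_mul]
      field_simp
    · simp only [Fin.mk_one, Pi.smul_apply, smul_eq_mul]
      field_simp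
      linear_combination -hdet

/-- If `G` is semisimple and contains `1 + n` with `n² = 0`, `n ≠ 0`, then some element of `G`
does not preserve the line `ker n`. -/
theorem exists_moving {G : Subgroup (GL (Fin 2) K)} (hss : IsSemisimpleSubgroup G)
    {g : GL (Fin 2) K} (hgG : g ∈ G) {n : Matrix (Fin 2) (Fin 2) K}
    (hg : (g : Matrix (Fin 2) (Fin 2) K) = 1 + n) (hn : n * n = 0) (hn0 : n ≠ 0) :
    ∃ h₀ ∈ G, n * (h₀ : Matrix (Fin 2) (Fin 2) K) * n ≠ 0 := by
  by_contra hcon'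
  have hcon : ∀ h₀ ∈ G, n * (h₀ : Matrix (Fin 2) (Fin 2) K) * n = 0 := fun h hh => by
    by_contra hne
    exact hcon' ⟨h, hh, hne⟩
  -- a non-zero column of `n`
  obtain ⟨j, hj⟩ : ∃ j, (fun i => n i j) ≠ 0 := by
    by_contra hall'
    have hall : ∀ j, (fun i => n i j) = 0 := fun j => by
      by_contra hne
      exact hall' ⟨j, hne⟩
    apply hn0
    ext i j
    exact congrFun (hall j) i
  set u : Fin 2 → K := fun i => n i j with hu
  have hucol : u = n *ᵥ Pi.single j 1 := by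
    rw [Matrix.mulVec_single_one]; rfl
  have hnu : n *ᵥ u = 0 := by
    rw [hucol, Matrix.mulVec_mulVec, hn, Matrix.zero_mulVec]
  have hstab : ∀ h ∈ G, ∃ c : K, (h : Matrix (Fin 2) (Fin 2) K) *ᵥ u = c • u := by
    intro h hh
    apply parallel_of_mulVec_eq_zero hn0 hj hnu
    rw [hucol, Matrix.mulVec_mulVec, Matrix.mulVec_mulVec, hcon h hh,
      Matrix.zero_mulVec]
  obtain ⟨v, hv, hvstab⟩ := hss u hj hstab
  obtain ⟨c, hc⟩ := hvstab g hgG
  have hv0 : v ≠ 0 := by
    intro h0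
    exact hv ⟨0, by rw [h0, zero_smul]⟩
  have hnv : n *ᵥ v = (c - 1) • v := by
    rw [hg, Matrix.add_mulVec, Matrix.one_mulVec] at hc
    rw [sub_smul, one_smul, ← hc, add_sub_cancel_left]
  have hc1 : c - 1 = 0 := by
    have h2 : n *ᵥ (n *ᵥ v) = 0 := by rw [Matrix.mulVec_mulVec, hn, Matrix.zero_mulVec]
    rw [hnv, Matrix.mulVec_smul, hnv, smul_smul] at h2
    rcases smul_eq_zero.mp h2 with h | h
    · exact mul_self_eq_zero.mp h
    · exact absurd h hv0
  rw [hc1, zero_smul] at hnv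
  exact hv (parallel_of_mulVec_eq_zero hn0 hj hnu hnv)

/-- powers of a unipotent element -/
theorem coe_pow_of_sq (g : GL (Fin 2) K) {n : Matrix (Fin 2) (Fin 2) K}
    (hg : (g : Matrix (Fin 2) (Fin 2) K) = 1 + n) (hn : n * n = 0) (k : ℕ) :
    ((g ^ k : GL (Fin 2) K) : Matrix (Fin 2) (Fin 2) K) = 1 + (k : K) • n := by
  induction k with
  | zero => simp
  | succ k ih =>
    rw [pow_succ, Units.val_mul, ih, hg, add_mul, one_mul, smul_mul_assoc, mul_add, mul_one, hn,
      add_zero, Nat.cast_succ, add_smul, one_smul]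
    abel

/-- conjugates of powers of a unipotent element -/
theorem coe_conj_pow_of_sq (g h₀ : GL (Fin 2) K) {n : Matrix (Fin 2) (Fin 2) K}
    (hg : (g : Matrix (Fin 2) (Fin 2) K) = 1 + n) (hn : n * n = 0) (k : ℕ) :
    ((h₀ * g ^ k * h₀⁻¹ : GL (Fin 2) K) : Matrix (Fin 2) (Fin 2) K) =
      1 + (k : K) • ((h₀ : Matrix (Fin 2) (Fin 2) K) * n *
        ((h₀⁻¹ : GL (Fin 2) K) : Matrix (Fin 2) (Fin 2) K)) := by
  have h1 : (h₀ : Matrix (Fin 2) (Fin 2) K) *
      ((h₀⁻¹ : GL (Fin 2) K) : Matrix (Fin 2) (Fin 2) K) = 1 := by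
    rw [← Units.val_mul, mul_inv_cancel, Units.val_one]
  rw [Units.val_mul, Units.val_mul, coe_pow_of_sq g hg hn, mul_add, mul_one, add_mul, h1,
    mul_smul_comm, smul_mul_assoc]

end kernel

section count

variable {ℓ : ℕ} [Fact ℓ.Prime]

/-- An element of order `ℓ` of `GL₂(𝔽_ℓ)` is unipotent. -/
theorem sq_zero_of_orderOf (g : GL (Fin 2) (ZMod ℓ)) (hg : g ^ ℓ = 1) :
    ((g : Matrix (Fin 2) (Fin 2) (ZMod ℓ)) - 1) * ((g : Matrix (Fin 2) (Fin 2) (ZMod ℓ)) - 1) = 0 := by
  set n : Matrix (Fin 2) (Fin 2) (ZMod ℓ) := (g : Matrix (Fin 2) (Fin 2) (ZMod ℓ)) - 1 with hn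
  have hpow : n ^ ℓ = 0 := by
    rw [hn, sub_pow_char_of_commute _ (Commute.one_right _), one_pow, ← Units.val_pow_eq_pow_val, hg,
      Units.val_one, sub_self]
  have hnil : IsNilpotent n := ⟨ℓ, hpow⟩
  have htr : n.trace = 0 := (Matrix.isNilpotent_trace_of_isNilpotent hnil).eq_zero
  have hdet : n.det = 0 := by
    have : IsNilpotent n.det := by
      refine ⟨ℓ, ?_⟩
      rw [← Matrix.det_pow, hpow, Matrix.det_zero]
    exact this.eq_zero
  rw [mul_self_eq n, htr, hdet, zero_smul, zero_smul, sub_self]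

/-- **Semisimple subgroups of `GL₂(𝔽_ℓ)` of order divisible by `ℓ` are large.** -/
theorem card_ge_of_dvd (G : Subgroup (GL (Fin 2) (ZMod ℓ))) (hss : IsSemisimpleSubgroup G)
    (hdvd : ℓ ∣ Nat.card G) : ℓ * (ℓ - 1) * ℓ ≤ Nat.card G := by
  obtain ⟨⟨g, hgG⟩, hord⟩ := exists_prime_orderOf_dvd_card' ℓ hdvd
  have hgl : g ^ ℓ = 1 := by
    have := pow_orderOf_eq_one (⟨g, hgG⟩ : G)
    rw [hord] at this
    exact congrArg Subtype.val this
  have hg1 : g ≠ 1 := by
    intro h1
    have : (⟨g, hgG⟩ : G) = 1 := Subtype.ext h1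
    rw [this, orderOf_one] at hord
    exact (Fact.out : ℓ.Prime).one_lt.ne hord
  set n : Matrix (Fin 2) (Fin 2) (ZMod ℓ) := (g : Matrix (Fin 2) (Fin 2) (ZMod ℓ)) - 1 with hn
  have hn2 : n * n = 0 := sq_zero_of_orderOf g hgl
  have hgn : (g : Matrix (Fin 2) (Fin 2) (ZMod ℓ)) = 1 + n := by rw [hn]; abel
  have hn0 : n ≠ 0 := by
    intro h0
    apply hg1
    apply Units.ext
    rw [hgn, h0, add_zero, Units.val_one]
  obtain ⟨h₀, hh₀G, hh₀⟩ := exists_moving hss hgG hgn hn2 hn0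
  obtain ⟨τ, hτ, hτn⟩ := exists_tau hn2 h₀ hh₀
  set n' : Matrix (Fin 2) (Fin 2) (ZMod ℓ) := (h₀ : Matrix (Fin 2) (Fin 2) (ZMod ℓ)) * n *
        ((h₀⁻¹ : GL (Fin 2) (ZMod ℓ)) : Matrix (Fin 2) (Fin 2) (ZMod ℓ)) with hn'
  -- the map
  let φ : ZMod ℓ × (ZMod ℓ)ˣ × ZMod ℓ → G := fun p =>
    ⟨g ^ p.1.val * (h₀ * g ^ (p.2.1 : ZMod ℓ).val * h₀⁻¹) * g ^ p.2.2.val,
      G.mul_mem (G.mul_mem (G.pow_mem hgG _)
        (G.mul_mem (G.mul_mem hh₀G (G.pow_mem hgG _)) (G.inv_mem hh₀G))) (G.pow_mem hgG _)⟩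
  have hφ : ∀ p, (((φ p : G) : GL (Fin 2) (ZMod ℓ)) : Matrix (Fin 2) (Fin 2) (ZMod ℓ)) =
      triple n n' p.1 (p.2.1 : ZMod ℓ) p.2.2 := by
    intro p
    simp only [φ, triple]
    rw [Units.val_mul, Units.val_mul, coe_pow_of_sq g hgn hn2, coe_pow_of_sq g hgn hn2,
      coe_conj_pow_of_sq g h₀ hgn hn2, ZMod.natCast_zmod_val, ZMod.natCast_zmod_val,
      ZMod.natCast_zmod_val]
  have hinj : Function.Injective φ := by
    intro p q hpq
    have h1 : triple n n' p.1 (p.2.1 : ZMod ℓ) p.2.2 = triple n n' q.1 (q.2.1 : ZMod ℓ) q.2.2 := by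
      rw [← hφ p, ← hφ q, hpq]
    obtain ⟨e1, e2, e3⟩ := triple_injective hn2 hn0 hτ hτn (Units.ne_zero p.2.1) h1
    exact Prod.ext e1 (Prod.ext (Units.ext e2) e3)
  have hcard := Nat.card_le_card_of_injective φ hinj
  rw [Nat.card_prod, Nat.card_prod, Nat.card_zmod, Nat.card_eq_fintype_card (α := (ZMod ℓ)ˣ),
    ZMod.card_units, ← mul_assoc] at hcard
  exact hcard

end count

end Fermat.Agent.DS.GL2.Transvections
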