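/-
Programme DS (S48), brick DS-G (helper55).

Two square-zero `2 × 2` matrices `n, n'` with `n n' + n' n = τ`, `τ ≠ 0`, behave like the matrix
units `E₁₂`, `τ E₂₁`.  Consequences:

* a matrix `D` with `tr D = tr (D n) = tr (D n') = tr (D n n') = 0` vanishes
  ("trace coordinates");
* the invertible `w` with `n w n = 0` (those preserving the line `ker n`) form a subgroup.
-/
import Mathlib
import Fermat.Agent.DS.GL2.Transvections

set_option autoImplicit false

namespace Fermat.Agent.DS.GL2.TraceCoord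

open Matrix Fermat.Agent.DS.GL2.Transvections

variable {k : Type*} [Field k]

/-- polarised Cayley–Hamilton for `2 × 2` matrices -/
theorem mul_add_mul_comm_eq (A B : Matrix (Fin 2) (Fin 2) k) :
    A * B + B * A = A.trace • B + B.trace • A +
      ((A * B).trace - A.trace * B.trace) • (1 : Matrix (Fin 2) (Fin 2) k) := by
  ext i j
  fin_cases i <;> fin_cases j <;>
    simp [Matrix.mul_apply, Fin.sum_univ_two, Matrix.trace_fin_two] <;> ring

theorem trace_eq_zero_of_sq {n : Matrix (Fin 2) (Fin 2) k} (hn : n * n = 0) : n.trace = 0 :=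
  (Matrix.isNilpotent_trace_of_isNilpotent ⟨2, by rw [pow_two, hn]⟩).eq_zero

/-- The data: two square-zero matrices whose anticommutator is a non-zero scalar. -/
structure IsPair (n n' : Matrix (Fin 2) (Fin 2) k) (τ : k) : Prop where
  sq : n * n = 0
  sq' : n' * n' = 0
  ne : τ ≠ 0
  anti : n * n' + n' * n = τ • (1 : Matrix (Fin 2) (Fin 2) k)

/-- Construction of a pair from `n` and a conjugate `n'` with `n n' n = τ n`. -/
theorem isPair_of {n n' : Matrix (Fin 2) (Fin 2) k} {τ : k} (hn : n * n = 0) (hn0 : n ≠ 0)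
    (hn' : n' * n' = 0) (hτ : τ ≠ 0) (h : n * n' * n = τ • n) : IsPair n n' τ := by
  refine ⟨hn, hn', hτ, ?_⟩
  have h1 := mul_add_mul_comm_eq n n'
  rw [trace_eq_zero_of_sq hn, trace_eq_zero_of_sq hn', zero_smul, zero_smul, zero_add, zero_add,
    mul_zero, sub_zero] at h1
  have h2 : n * n' * n = (n * n').trace • n :=
    mul_mul_self_of_det n n' (det_eq_zero_of_sq n hn)
  rw [h] at h2
  rw [h1, ← smul_left_cancel_of_ne hn0 h2]

namespace IsPair

variable {n n' : Matrix (Fin 2) (Fin 2) k} {τ : k}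

theorem symm (h : IsPair n n' τ) : IsPair n' n τ :=
  ⟨h.sq', h.sq, h.ne, by rw [add_comm]; exact h.anti⟩

theorem rule (h : IsPair n n' τ) (X : Matrix (Fin 2) (Fin 2) k) :
    n * X * n = (n * X).trace • n :=
  mul_mul_self_of_det n X (det_eq_zero_of_sq n h.sq)

theorem rule' (h : IsPair n n' τ) (X : Matrix (Fin 2) (Fin 2) k) :
    n' * X * n' = (n' * X).trace • n' :=
  h.symm.rule X

theorem mul_mul (h : IsPair n n' τ) : n * n' * n = τ • n := by
  have h1 : n * n' = τ • (1 : Matrix (Fin 2) (Fin 2) k) - n' * n := eq_sub_of_add_eq h.anti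
  rw [h1, sub_mul, smul_mul_assoc, one_mul, mul_assoc, h.sq, mul_zero, sub_zero]

theorem trace_mul (h : IsPair n n' τ) (hn0 : n ≠ 0) : (n * n').trace = τ := by
  have h1 := h.rule n'
  rw [h.mul_mul] at h1
  exact (smul_left_cancel_of_ne hn0 h1).symm

/-- `x = (1/τ)(n n' + n' n) x`, in the form used below. -/
theorem decompose (h : IsPair n n' τ) (D : Matrix (Fin 2) (Fin 2) k) :
    (τ * τ) • D = (n * n' + n' * n) * D * (n * n' + n' * n) := by
  rw [h.anti, smul_mul_assoc, one_mul, mul_smul_comm, mul_one, smul_smul]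

/-- **Trace coordinates.** -/
theorem eq_zero_of_trace (h : IsPair n n' τ) (D : Matrix (Fin 2) (Fin 2) k)
    (h1 : D.trace = 0) (h2 : (D * n).trace = 0) (h3 : (D * n').trace = 0)
    (h4 : (D * (n * n')).trace = 0) : D = 0 := by
  have h5 : (D * (n' * n)).trace = 0 := by
    have : n' * n = τ • (1 : Matrix (Fin 2) (Fin 2) k) - n * n' := eq_sub_of_add_eq' h.anti
    rw [this, mul_sub, Matrix.trace_sub, h4, mul_smul_comm, mul_one, Matrix.trace_smul, h1,
      smul_zero, sub_zero]
  have t1 : n * n' * D * (n * n') = 0 := by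
    have e : n * n' * D * (n * n') = n * (n' * (D * n) * n') := by simp only [mul_assoc]
    rw [e, h.rule', Matrix.trace_mul_comm, mul_assoc, h4, zero_smul, mul_zero]
  have t2 : n * n' * D * (n' * n) = 0 := by
    have e : n * n' * D * (n' * n) = n * (n' * D * n') * n := by simp only [mul_assoc]
    rw [e, h.rule', Matrix.trace_mul_comm, h3, zero_smul, mul_zero, zero_mul]
  have t3 : n' * n * D * (n * n') = 0 := by
    have e : n' * n * D * (n * n') = n' * (n * D * n) * n' := by simp only [mul_assoc]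
    rw [e, h.rule, Matrix.trace_mul_comm, h2, zero_smul, mul_zero, zero_mul]
  have t4 : n' * n * D * (n' * n) = 0 := by
    have e : n' * n * D * (n' * n) = n' * (n * (D * n') * n) := by simp only [mul_assoc]
    rw [e, h.rule, Matrix.trace_mul_comm, mul_assoc, h5, zero_smul, mul_zero]
  have hd := h.decompose D
  rw [add_mul, add_mul, mul_add, mul_add, t1, t2, t3, t4, add_zero, add_zero] at hd
  rcases smul_eq_zero.mp hd with h0 | h0
  · exact absurd (mul_self_eq_zero.mp h0) h.ne
  · exact h0

/-- The invertible matrices `w` with `n w n = 0`, i.e. those preserving the line `ker n`. -/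
def lineStab (h : IsPair n n' τ) : Subgroup (GL (Fin 2) k) where
  carrier := {w | n * (w : Matrix (Fin 2) (Fin 2) k) * n = 0}
  one_mem' := by
    show n * ((1 : GL (Fin 2) k) : Matrix (Fin 2) (Fin 2) k) * n = 0
    rw [Units.val_one, mul_one, h.sq]
  mul_mem' := by
    intro a b ha hb
    have ha' : n * (a : Matrix (Fin 2) (Fin 2) k) * n = 0 := ha
    have hb' : n * (b : Matrix (Fin 2) (Fin 2) k) * n = 0 := hb
    show n * ((a * b : GL (Fin 2) k) : Matrix (Fin 2) (Fin 2) k) * n = 0
    have e : τ • (n * ((a * b : GL (Fin 2) k) : Matrix (Fin 2) (Fin 2) k) * n) =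
        n * (a : Matrix (Fin 2) (Fin 2) k) * (n * n' + n' * n) *
          ((b : Matrix (Fin 2) (Fin 2) k) * n) := by
      rw [h.anti, mul_smul_comm, mul_one, smul_mul_assoc, Units.val_mul]
      simp only [mul_assoc]
    have e2 : n * (a : Matrix (Fin 2) (Fin 2) k) * (n * n' + n' * n) *
          ((b : Matrix (Fin 2) (Fin 2) k) * n) =
        (n * (a : Matrix (Fin 2) (Fin 2) k) * n) * n' * ((b : Matrix (Fin 2) (Fin 2) k) * n) +
          n * (a : Matrix (Fin 2) (Fin 2) k) * n' * (n * (b : Matrix (Fin 2) (Fin 2) k) * n) := by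
      rw [mul_add, add_mul]
      simp only [mul_assoc]
    rw [e2, ha', hb', zero_mul, zero_mul, mul_zero, add_zero] at e
    rcases smul_eq_zero.mp e with h0 | h0
    · exact absurd h0 h.ne
    · exact h0
  inv_mem' := by
    intro a ha
    have ha' : n * (a : Matrix (Fin 2) (Fin 2) k) * n = 0 := ha
    show n * ((a⁻¹ : GL (Fin 2) k) : Matrix (Fin 2) (Fin 2) k) * n = 0
    rw [coe_inv_eq, mul_smul_comm, smul_mul_assoc, mul_sub, sub_mul, mul_smul_comm, mul_one,
      smul_mul_assoc, h.sq, smul_zero, ha', sub_zero, smul_zero]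

theorem mem_lineStab (h : IsPair n n' τ) (w : GL (Fin 2) k) :
    w ∈ h.lineStab ↔ n * (w : Matrix (Fin 2) (Fin 2) k) * n = 0 := Iff.rfl

theorem trace_ne_zero_of_not_mem (h : IsPair n n' τ) {w : GL (Fin 2) k} (hw : w ∉ h.lineStab) :
    ((w : Matrix (Fin 2) (Fin 2) k) * n).trace ≠ 0 := by
  intro h0
  apply hw
  rw [mem_lineStab, h.rule, Matrix.trace_mul_comm, h0, zero_smul]

end IsPair

end Fermat.Agent.DS.GL2.TraceCoord
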