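/-
Programme DS (S48), brick DS-G (helper55): the case `ℓ ∣ |G|` of Deligne–Serre, Prop. 7.2, for a
finite subgroup `G` of `GL₂(k)`, `k` any field of characteristic `ℓ`.

* `exists_pair`: a semisimple `G` of order divisible by `ℓ` contains two unipotent elements
  `1 + n`, `1 + n'` with `n n' + n' n = τ ≠ 0`.
* `card_le_pow_four`: if moreover all traces of elements of `G` lie in the prime field, then
  `|G| ≤ ℓ⁴` (trace coordinates).
* `card_mul_prime_le`: if `H ⊆ G` and the trace takes at most `M` values on `H`, then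
  `2 ℓ |H| ≤ (2 M + ℓ) |G|`  (on a coset `w ⟨1 + n⟩` with `w` not preserving `ker n` the trace is
  injective; the `w` preserving `ker n` form a proper subgroup).
-/
import Mathlib
import Fermat.Agent.DS.GL2.Transvections
import Fermat.Agent.DS.GL2.TraceCoord

set_option autoImplicit false

namespace Fermat.Agent.DS.GL2.DvdGeneral

open Matrix Fermat.Agent.DS.GL2.Transvections Fermat.Agent.DS.GL2.TraceCoord

variable {k : Type*} [Field k]

section unipotent

variable {ℓ : ℕ} [Fact ℓ.Prime] [CharP k ℓ]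

/-- An element of `GL₂(k)` killed by `ℓ = char k` is unipotent. -/
theorem sq_zero_of_pow_eq_one (g : GL (Fin 2) k) (hg : g ^ ℓ = 1) :
    ((g : Matrix (Fin 2) (Fin 2) k) - 1) * ((g : Matrix (Fin 2) (Fin 2) k) - 1) = 0 := by
  set n : Matrix (Fin 2) (Fin 2) k := (g : Matrix (Fin 2) (Fin 2) k) - 1 with hn
  have hpow : n ^ ℓ = 0 := by
    rw [hn, sub_pow_char_of_commute _ (Commute.one_right _), one_pow, ← Units.val_pow_eq_pow_val,
      hg, Units.val_one, sub_self]
  have hnil : IsNilpotent n := ⟨ℓ, hpow⟩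
  have htr : n.trace = 0 := (Matrix.isNilpotent_trace_of_isNilpotent hnil).eq_zero
  have hdet : n.det = 0 := by
    have : IsNilpotent n.det := by
      refine ⟨ℓ, ?_⟩
      rw [← Matrix.det_pow, hpow, Matrix.det_zero]
    exact this.eq_zero
  rw [mul_self_eq n, htr, hdet, zero_smul, zero_smul, sub_self]

/-- A semisimple finite subgroup of `GL₂(k)` of order divisible by `ℓ = char k` contains a pair of
unipotent elements with distinct axes. -/
theorem exists_pair (G : Subgroup (GL (Fin 2) k)) [Finite G] (hss : IsSemisimpleSubgroup G)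
    (hdvd : ℓ ∣ Nat.card G) :
    ∃ (g g' h₀ : GL (Fin 2) k) (n n' : Matrix (Fin 2) (Fin 2) k) (τ : k),
      g ∈ G ∧ g' ∈ G ∧ h₀ ∈ G ∧ orderOf g = ℓ ∧ (g : Matrix (Fin 2) (Fin 2) k) = 1 + n ∧
        (g' : Matrix (Fin 2) (Fin 2) k) = 1 + n' ∧ n ≠ 0 ∧ IsPair n n' τ ∧
          n * (h₀ : Matrix (Fin 2) (Fin 2) k) * n ≠ 0 := by
  obtain ⟨⟨g, hgG⟩, hord⟩ := exists_prime_orderOf_dvd_card' ℓ hdvd
  have hord' : orderOf g = ℓ := by rw [← hord, Subgroup.orderOf_mk]
  have hgl : g ^ ℓ = 1 := by rw [← hord']; exact pow_orderOf_eq_one g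
  have hg1 : g ≠ 1 := by
    intro h1
    rw [h1, orderOf_one] at hord'
    exact (Fact.out : ℓ.Prime).one_lt.ne hord'
  set n : Matrix (Fin 2) (Fin 2) k := (g : Matrix (Fin 2) (Fin 2) k) - 1 with hn
  have hn2 : n * n = 0 := sq_zero_of_pow_eq_one g hgl
  have hgn : (g : Matrix (Fin 2) (Fin 2) k) = 1 + n := by rw [hn]; abel
  have hn0 : n ≠ 0 := by
    intro h0
    apply hg1
    apply Units.ext
    rw [hgn, h0, add_zero, Units.val_one]
  obtain ⟨h₀, hh₀G, hh₀⟩ := exists_moving hss hgG hgn hn2 hn0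
  obtain ⟨τ, hτ, hτn⟩ := exists_tau hn2 h₀ hh₀
  set n' : Matrix (Fin 2) (Fin 2) k := (h₀ : Matrix (Fin 2) (Fin 2) k) * n *
        ((h₀⁻¹ : GL (Fin 2) k) : Matrix (Fin 2) (Fin 2) k) with hn'
  have hinv : ((h₀⁻¹ : GL (Fin 2) k) : Matrix (Fin 2) (Fin 2) k) *
      (h₀ : Matrix (Fin 2) (Fin 2) k) = 1 := by
    rw [← Units.val_mul, inv_mul_cancel, Units.val_one]
  have hinv' : (h₀ : Matrix (Fin 2) (Fin 2) k) *
      ((h₀⁻¹ : GL (Fin 2) k) : Matrix (Fin 2) (Fin 2) k) = 1 := by
    rw [← Units.val_mul, mul_inv_cancel, Units.val_one]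
  have hn'2 : n' * n' = 0 := by
    have e : n' * n' = (h₀ : Matrix (Fin 2) (Fin 2) k) * (n *
        (((h₀⁻¹ : GL (Fin 2) k) : Matrix (Fin 2) (Fin 2) k) * (h₀ : Matrix (Fin 2) (Fin 2) k)) * n) *
          ((h₀⁻¹ : GL (Fin 2) k) : Matrix (Fin 2) (Fin 2) k) := by
      rw [hn']; simp only [mul_assoc]
    rw [e, hinv, mul_one, hn2, mul_zero, zero_mul]
  have hg' : ((h₀ * g * h₀⁻¹ : GL (Fin 2) k) : Matrix (Fin 2) (Fin 2) k) = 1 + n' := by
    rw [Units.val_mul, Units.val_mul, hgn, mul_add, mul_one, add_mul, hinv']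
  exact ⟨g, h₀ * g * h₀⁻¹, h₀, n, n', τ, hgG, G.mul_mem (G.mul_mem hh₀G hgG) (G.inv_mem hh₀G),
    hh₀G, hord', hgn, hg', hn0, isPair_of hn2 hn0 hn'2 hτ hτn, hh₀⟩

end unipotent

section tracecoord

variable {ℓ : ℕ} [Fact ℓ.Prime] [CharP k ℓ]

/-- **Trace coordinates**: a subgroup of `GL₂(k)` all of whose traces lie in the prime field and
which contains a pair of unipotent elements with distinct axes has at most `ℓ⁴` elements. -/
theorem card_le_pow_four (G : Subgroup (GL (Fin 2) k))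
    (htr : ∀ w ∈ G, ∃ t : ℤ, (w : Matrix (Fin 2) (Fin 2) k).trace = (t : k))
    {g g' : GL (Fin 2) k} (hg : g ∈ G) (hg' : g' ∈ G) {n n' : Matrix (Fin 2) (Fin 2) k} {τ : k}
    (hgn : (g : Matrix (Fin 2) (Fin 2) k) = 1 + n) (hgn' : (g' : Matrix (Fin 2) (Fin 2) k) = 1 + n')
    (hp : IsPair n n' τ) : Nat.card G ≤ ℓ ^ 4 := by
  set ι : ZMod ℓ →+* k := ZMod.castHom (dvd_refl ℓ) k with hι
  have htr' : ∀ w ∈ G, ∃ a : ZMod ℓ, ι a = (w : Matrix (Fin 2) (Fin 2) k).trace := by
    intro w hw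
    obtain ⟨t, ht⟩ := htr w hw
    exact ⟨(t : ZMod ℓ), by rw [ht, map_intCast]⟩
  -- the four coordinates
  have h1 : ∀ w : G, ∃ a : ZMod ℓ, ι a = ((w : GL (Fin 2) k) : Matrix (Fin 2) (Fin 2) k).trace :=
    fun w => htr' w w.2
  have h2 : ∀ w : G, ∃ a : ZMod ℓ, ι a =
      (((w : GL (Fin 2) k) * g : GL (Fin 2) k) : Matrix (Fin 2) (Fin 2) k).trace :=
    fun w => htr' _ (G.mul_mem w.2 hg)
  have h3 : ∀ w : G, ∃ a : ZMod ℓ, ι a =
      (((w : GL (Fin 2) k) * g' : GL (Fin 2) k) : Matrix (Fin 2) (Fin 2) k).trace :=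
    fun w => htr' _ (G.mul_mem w.2 hg')
  have h4 : ∀ w : G, ∃ a : ZMod ℓ, ι a =
      (((w : GL (Fin 2) k) * (g * g') : GL (Fin 2) k) : Matrix (Fin 2) (Fin 2) k).trace :=
    fun w => htr' _ (G.mul_mem w.2 (G.mul_mem hg hg'))
  choose c1 hc1 using h1
  choose c2 hc2 using h2
  choose c3 hc3 using h3
  choose c4 hc4 using h4
  let Φ : G → ZMod ℓ × ZMod ℓ × ZMod ℓ × ZMod ℓ := fun w => (c1 w, c2 w, c3 w, c4 w)
  have hinj : Function.Injective Φ := by
    intro w w₁ hww
    simp only [Φ, Prod.mk.injEq] at hww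
    obtain ⟨e1, e2, e3, e4⟩ := hww
    have f1 := (hc1 w).symm.trans ((congrArg ι e1).trans (hc1 w₁))
    have f2 := (hc2 w).symm.trans ((congrArg ι e2).trans (hc2 w₁))
    have f3 := (hc3 w).symm.trans ((congrArg ι e3).trans (hc3 w₁))
    have f4 := (hc4 w).symm.trans ((congrArg ι e4).trans (hc4 w₁))
    have e : ((g * g' : GL (Fin 2) k) : Matrix (Fin 2) (Fin 2) k) = 1 + n + n' + n * n' := by
      rw [Units.val_mul, hgn, hgn', mul_add, mul_one, add_mul, one_mul]
      abel
    have tg : ∀ x : GL (Fin 2) k, ((x * g : GL (Fin 2) k) : Matrix (Fin 2) (Fin 2) k).trace =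
        (x : Matrix (Fin 2) (Fin 2) k).trace + ((x : Matrix (Fin 2) (Fin 2) k) * n).trace := by
      intro x
      rw [Units.val_mul, hgn, mul_add, mul_one, Matrix.trace_add]
    have tg' : ∀ x : GL (Fin 2) k, ((x * g' : GL (Fin 2) k) : Matrix (Fin 2) (Fin 2) k).trace =
        (x : Matrix (Fin 2) (Fin 2) k).trace + ((x : Matrix (Fin 2) (Fin 2) k) * n').trace := by
      intro x
      rw [Units.val_mul, hgn', mul_add, mul_one, Matrix.trace_add]
    have tgg : ∀ x : GL (Fin 2) k,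
        ((x * (g * g') : GL (Fin 2) k) : Matrix (Fin 2) (Fin 2) k).trace =
        (x : Matrix (Fin 2) (Fin 2) k).trace + ((x : Matrix (Fin 2) (Fin 2) k) * n).trace +
          ((x : Matrix (Fin 2) (Fin 2) k) * n').trace +
            ((x : Matrix (Fin 2) (Fin 2) k) * (n * n')).trace := by
      intro x
      rw [Units.val_mul, e, mul_add, mul_add, mul_add, mul_one, Matrix.trace_add, Matrix.trace_add,
        Matrix.trace_add]
    rw [tg, tg, f1] at f2
    rw [tg', tg', f1] at f3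
    have f2' := add_left_cancel f2
    have f3' := add_left_cancel f3
    rw [tgg, tgg, f1, f2', f3'] at f4
    have f4' := add_left_cancel f4
    set D : Matrix (Fin 2) (Fin 2) k := ((w : GL (Fin 2) k) : Matrix (Fin 2) (Fin 2) k) -
      ((w₁ : GL (Fin 2) k) : Matrix (Fin 2) (Fin 2) k) with hD
    have hD0 : D = 0 := by
      apply hp.eq_zero_of_trace D
      · rw [hD, Matrix.trace_sub, f1, sub_self]
      · rw [hD, sub_mul, Matrix.trace_sub, f2', sub_self]
      · rw [hD, sub_mul, Matrix.trace_sub, f3', sub_self]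
      · rw [hD, sub_mul, Matrix.trace_sub, f4', sub_self]
    exact Subtype.ext (Units.ext (sub_eq_zero.mp hD0))
  have hcard := Nat.card_le_card_of_injective Φ hinj
  rw [Nat.card_prod, Nat.card_prod, Nat.card_prod, Nat.card_zmod] at hcard
  calc Nat.card G ≤ ℓ * (ℓ * (ℓ * ℓ)) := hcard
    _ = ℓ ^ 4 := by ring

end tracecoord

section cosets

variable {ℓ : ℕ}

/-- On the elements of `G` not preserving `ker n`, the trace separates the elements of a coset of
`⟨1 + n⟩`: a set of such elements on which the trace takes few values is small. -/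
theorem card_mul_prime_le_of_not_mem (G : Subgroup (GL (Fin 2) k)) [Finite G]
    {g : GL (Fin 2) k} (hg : g ∈ G) (hord : orderOf g = ℓ)
    {n n' : Matrix (Fin 2) (Fin 2) k} {τ : k} (hgn : (g : Matrix (Fin 2) (Fin 2) k) = 1 + n)
    (hp : IsPair n n' τ) (S : Finset G) (T : Finset k)
    (hT : ∀ w ∈ S, ((w : GL (Fin 2) k) : Matrix (Fin 2) (Fin 2) k).trace ∈ T)
    (hS : ∀ w ∈ S, (w : GL (Fin 2) k) ∉ hp.lineStab) :
    S.card * ℓ ≤ T.card * Nat.card G := by
  classical
  set g₀ : G := ⟨g, hg⟩ with hg₀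
  set U : Subgroup G := Subgroup.zpowers g₀ with hU
  have hUcard : Nat.card U = ℓ := by
    rw [hU, Nat.card_zpowers, hg₀, Subgroup.orderOf_mk, hord]
  have hquot : Nat.card G = Nat.card (G ⧸ U) * ℓ := by
    rw [← hUcard]; exact Subgroup.card_eq_card_quotient_mul_card_subgroup U
  have : Fintype (G ⧸ U) := Fintype.ofFinite _
  set π : G → G ⧸ U := fun w => (w : G ⧸ U) with hπ
  have hfib : ∀ b ∈ S.image π, (S.filter (fun w => π w = b)).card ≤ T.card := by
    intro b _
    apply Finset.card_le_card_of_injOn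
      (fun w : G => ((w : GL (Fin 2) k) : Matrix (Fin 2) (Fin 2) k).trace)
    · intro w hw
      exact hT w (Finset.mem_filter.mp (Finset.mem_coe.mp hw)).1
    · intro w hw w₁ hw₁ htr
      have hw' := Finset.mem_filter.mp (Finset.mem_coe.mp hw)
      have hw₁' := Finset.mem_filter.mp (Finset.mem_coe.mp hw₁)
      have hcos : π w = π w₁ := hw'.2.trans hw₁'.2.symm
      have hmem : w⁻¹ * w₁ ∈ U := QuotientGroup.eq.mp hcos
      rw [hU, ← mem_powers_iff_mem_zpowers, Submonoid.mem_powers_iff] at hmem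
      obtain ⟨i, hi⟩ := hmem
      have hw₁eq : w₁ = w * g₀ ^ i := by rw [hi, mul_inv_cancel_left]
      have hpow : (((g₀ ^ i : G) : GL (Fin 2) k) : Matrix (Fin 2) (Fin 2) k) = 1 + (i : k) • n := by
        rw [Subgroup.coe_pow, hg₀]
        exact coe_pow_of_sq g hgn hp.sq i
      have hval : ((w₁ : GL (Fin 2) k) : Matrix (Fin 2) (Fin 2) k) =
          ((w : GL (Fin 2) k) : Matrix (Fin 2) (Fin 2) k) +
            (i : k) • (((w : GL (Fin 2) k) : Matrix (Fin 2) (Fin 2) k) * n) := by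
        rw [hw₁eq, Subgroup.coe_mul, Units.val_mul, hpow, mul_add, mul_one, mul_smul_comm]
      have htr' : ((w : GL (Fin 2) k) : Matrix (Fin 2) (Fin 2) k).trace =
          ((w₁ : GL (Fin 2) k) : Matrix (Fin 2) (Fin 2) k).trace := htr
      rw [hval, Matrix.trace_add, Matrix.trace_smul, smul_eq_mul] at htr'
      have hzero : (i : k) * (((w : GL (Fin 2) k) : Matrix (Fin 2) (Fin 2) k) * n).trace = 0 := by
        have := htr'
        linear_combination -this
      have hne := hp.trace_ne_zero_of_not_mem (hS w hw'.1)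
      have hi0 : (i : k) = 0 := by
        rcases mul_eq_zero.mp hzero with h | h
        · exact h
        · exact absurd h hne
      have hone : g₀ ^ i = 1 := by
        apply Subtype.ext
        apply Units.ext
        rw [hpow, hi0, zero_smul, add_zero]
        rfl
      rw [hw₁eq, hone, mul_one]
  have h1 := Finset.card_le_mul_card_image S T.card hfib
  have h2 : (S.image π).card ≤ Nat.card (G ⧸ U) := by
    rw [Nat.card_eq_fintype_card]; exact Finset.card_le_univ _
  calc S.card * ℓ ≤ T.card * (S.image π).card * ℓ := Nat.mul_le_mul_right _ h1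
    _ ≤ T.card * Nat.card (G ⧸ U) * ℓ :=
        Nat.mul_le_mul_right _ (Nat.mul_le_mul_left _ h2)
    _ = T.card * Nat.card G := by rw [hquot, mul_assoc]

/-- The elements of `G` preserving `ker n` form a proper subgroup as soon as one element moves the
line. -/
theorem two_mul_card_le (G : Subgroup (GL (Fin 2) k)) [Finite G]
    {n n' : Matrix (Fin 2) (Fin 2) k} {τ : k} (hp : IsPair n n' τ) {h₀ : GL (Fin 2) k}
    (hh₀G : h₀ ∈ G) (hh₀ : n * (h₀ : Matrix (Fin 2) (Fin 2) k) * n ≠ 0) (S : Finset G)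
    (hS : ∀ w ∈ S, (w : GL (Fin 2) k) ∈ hp.lineStab) : 2 * S.card ≤ Nat.card G := by
  classical
  set B : Subgroup G := hp.lineStab.subgroupOf G with hB
  have hBtop : B ≠ ⊤ := by
    intro htop
    have : (⟨h₀, hh₀G⟩ : G) ∈ B := by rw [htop]; exact Subgroup.mem_top _
    rw [hB, Subgroup.mem_subgroupOf] at this
    exact hh₀ ((hp.mem_lineStab h₀).mp this)
  have hidx : 2 ≤ B.index := by
    have h1 : B.index ≠ 1 := fun h => hBtop (Subgroup.index_eq_one.mp h)
    have h0 : B.index ≠ 0 := Subgroup.index_ne_zero_of_finite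
    omega
  have hcard : Nat.card B * B.index = Nat.card G := Subgroup.card_mul_index B
  have hSB : S.card ≤ Nat.card B := by
    have : Fintype B := Fintype.ofFinite _
    rw [Nat.card_eq_fintype_card]
    have hmem : ∀ w ∈ S, w ∈ B := fun w hw => by
      rw [hB, Subgroup.mem_subgroupOf]; exact hS w hw
    have h1 : (S.subtype (· ∈ B)).card = S.card := by
      rw [Finset.card_subtype, Finset.filter_true_of_mem hmem]
    rw [← h1]
    exact Finset.card_le_univ _
  calc 2 * S.card ≤ B.index * Nat.card B := Nat.mul_le_mul hidx hSB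
    _ = Nat.card G := by rw [mul_comm, hcard]

/-- **Counting in the case `ℓ ∣ |G|`.**  If the trace takes at most `|T|` values on `H ⊆ G`, then
`2 ℓ |H| ≤ (2 |T| + ℓ) |G|`. -/
theorem card_mul_prime_le (G : Subgroup (GL (Fin 2) k)) [Finite G]
    {g h₀ : GL (Fin 2) k} (hg : g ∈ G) (hord : orderOf g = ℓ) (hh₀G : h₀ ∈ G)
    {n n' : Matrix (Fin 2) (Fin 2) k} {τ : k} (hgn : (g : Matrix (Fin 2) (Fin 2) k) = 1 + n)
    (hp : IsPair n n' τ) (hh₀ : n * (h₀ : Matrix (Fin 2) (Fin 2) k) * n ≠ 0)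
    (H : Finset (GL (Fin 2) k)) (hHG : ∀ h ∈ H, h ∈ G) (T : Finset k)
    (hT : ∀ h ∈ H, (h : Matrix (Fin 2) (Fin 2) k).trace ∈ T) :
    2 * ℓ * H.card ≤ (2 * T.card + ℓ) * Nat.card G := by
  classical
  set H' : Finset G := H.subtype (· ∈ G) with hH'
  have hH'card : H'.card = H.card := by
    rw [hH', Finset.card_subtype, Finset.filter_true_of_mem hHG]
  have hT' : ∀ w ∈ H', ((w : GL (Fin 2) k) : Matrix (Fin 2) (Fin 2) k).trace ∈ T := by
    intro w hw
    rw [hH', Finset.mem_subtype] at hw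
    exact hT _ hw
  set S₁ : Finset G := H'.filter (fun w => (w : GL (Fin 2) k) ∉ hp.lineStab) with hS₁
  set S₂ : Finset G := H'.filter (fun w => ¬ (w : GL (Fin 2) k) ∉ hp.lineStab) with hS₂
  have hsplit : S₁.card + S₂.card = H'.card :=
    Finset.card_filter_add_card_filter_not (s := H') (fun w => (w : GL (Fin 2) k) ∉ hp.lineStab)
  have h1 : S₁.card * ℓ ≤ T.card * Nat.card G :=
    card_mul_prime_le_of_not_mem G hg hord hgn hp S₁ T
      (fun w hw => hT' w (Finset.mem_filter.mp hw).1) (fun w hw => (Finset.mem_filter.mp hw).2)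
  have h2 : 2 * S₂.card ≤ Nat.card G :=
    two_mul_card_le G hp hh₀G hh₀ S₂ (fun w hw => not_not.mp (Finset.mem_filter.mp hw).2)
  rw [← hH'card, ← hsplit]
  nlinarith

end cosets

end Fermat.Agent.DS.GL2.DvdGeneral
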