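/-
Programme DS (S48), brick DS-G / B4 (helper55): **Deligne–Serre, Prop. 7.2**, final assembly.

`G` a finite semisimple subgroup of `GL₂(k)`, `k` any field of characteristic `ℓ`, all of whose
traces lie in the prime field.  If a subset `H ⊆ G` with `|H| ≥ (1 - η) |G|` (`η < 1/60`) has its
characteristic polynomials in a set of at most `M` polynomials, then `|G| ≤ A(η, M)`, independently of
`ℓ`, `k` and `G`.

* case `ℓ ∤ |G|`: helper95's `Fermat.Agent.DS.Grp.PrimeTo.card_mul_le_field` (Klein);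
* case `ℓ ∣ |G|`: `Fermat.Agent.DS.GL2.DvdGeneral` (two transvections, trace coordinates).
-/
import Mathlib
import Fermat.Agent.DS.GL2.DvdGeneral
import Fermat.Agent.DS.Grp.PrimeTo

set_option autoImplicit false

namespace Fermat.Agent.DS.GL2.Main

open Matrix Polynomial Fermat.Agent.DS.GL2.Transvections Fermat.Agent.DS.GL2.TraceCoord

universe u

/-- A subset `H` of `G` of proportion at least `1 - η` on which the characteristic polynomial takes
its values in a set of at most `M` polynomials. -/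
def FewCharpolys {k : Type u} [Field k] (G : Subgroup (GL (Fin 2) k)) (η : ℝ) (M : ℕ) : Prop :=
  ∃ (H : Finset (GL (Fin 2) k)) (P : Finset k[X]),
    (∀ h ∈ H, h ∈ G) ∧ (1 - η) * (Nat.card G : ℝ) ≤ (H.card : ℝ) ∧ P.card ≤ M ∧
      ∀ h ∈ H, (h : Matrix (Fin 2) (Fin 2) k).charpoly ∈ P

section aux

variable {k : Type u} [Field k]

theorem trace_eq_neg_coeff (w : Matrix (Fin 2) (Fin 2) k) : w.trace = -w.charpoly.coeff 1 := by
  rw [Matrix.trace_eq_neg_charpoly_coeff, Fintype.card_fin]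

theorem det_eq_coeff (w : Matrix (Fin 2) (Fin 2) k) : w.det = w.charpoly.coeff 0 := by
  rw [Matrix.det_eq_sign_charpoly_coeff, Fintype.card_fin]
  norm_num

/-- If the characteristic polynomial is defined over the prime field, the trace is an integer. -/
theorem exists_int_trace_of_charpoly_mem_range {ℓ : ℕ} [Fact ℓ.Prime] [Algebra (ZMod ℓ) k]
    (w : Matrix (Fin 2) (Fin 2) k)
    (h : w.charpoly ∈ Set.range (Polynomial.map (algebraMap (ZMod ℓ) k))) :
    ∃ t : ℤ, w.trace = (t : k) := by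
  obtain ⟨p, hp⟩ := h
  refine ⟨((-p.coeff 1 : ZMod ℓ).val : ℤ), ?_⟩
  rw [trace_eq_neg_coeff, ← hp, Polynomial.coeff_map, ← map_neg]
  conv_lhs => rw [← ZMod.natCast_zmod_val (-p.coeff 1 : ZMod ℓ)]
  rw [map_natCast, Int.cast_natCast]

end aux

/-- the bound -/
noncomputable def bound (η : ℝ) (M : ℕ) : ℕ :=
  max (Nat.ceil (120 * (M : ℝ) / (1 - 60 * η))) ((Nat.ceil (2 * (M : ℝ) / (1 - 2 * η))) ^ 4)

/-- **Deligne–Serre, Prop. 7.2**, with the explicit bound. -/
theorem card_le_bound {η : ℝ} (hη : η < 1 / 60) (M : ℕ) (ℓ : ℕ) [Fact ℓ.Prime] (k : Type u)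
    [Field k] [CharP k ℓ] (G : Subgroup (GL (Fin 2) k)) [Finite G]
    (htr : ∀ w ∈ G, ∃ t : ℤ, (w : Matrix (Fin 2) (Fin 2) k).trace = (t : k))
    (hss : IsSemisimpleSubgroup G) (hfew : FewCharpolys G η M) :
    Nat.card G ≤ bound η M := by
  classical
  obtain ⟨H, P, hHG, hH, hP, hHP⟩ := hfew
  have hGpos : (0 : ℝ) < Nat.card G := by exact_mod_cast Nat.card_pos
  by_cases hdvd : ℓ ∣ Nat.card G
  · -- the case `ℓ ∣ |G|`
    refine le_trans ?_ (le_max_right _ _)
    obtain ⟨g, g', h₀, n, n', τ, hgG, hg'G, hh₀G, hord, hgn, hgn', -, hp, hh₀⟩ :=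
      DvdGeneral.exists_pair (ℓ := ℓ) G hss hdvd
    have h4 : Nat.card G ≤ ℓ ^ 4 := DvdGeneral.card_le_pow_four G htr hgG hg'G hgn hgn' hp
    set T : Finset k := P.image (fun p => -p.coeff 1) with hT
    have hTcard : T.card ≤ M := le_trans Finset.card_image_le hP
    have hTmem : ∀ h ∈ H, (h : Matrix (Fin 2) (Fin 2) k).trace ∈ T := by
      intro h hh
      rw [hT, Finset.mem_image]
      exact ⟨_, hHP h hh, (trace_eq_neg_coeff _).symm⟩
    have hcount := DvdGeneral.card_mul_prime_le G hgG hord hh₀G hgn hp hh₀ H hHG T hTmem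
    have hcount' : 2 * (ℓ : ℝ) * (H.card : ℝ) ≤ (2 * (M : ℝ) + ℓ) * (Nat.card G : ℝ) := by
      have h1 : (2 * T.card + ℓ) * Nat.card G ≤ (2 * M + ℓ) * Nat.card G :=
        Nat.mul_le_mul_right _ (by omega)
      have := hcount.trans h1
      exact_mod_cast this
    have hℓpos : (0 : ℝ) < ℓ := by exact_mod_cast (Fact.out : ℓ.Prime).pos
    have h5 : 2 * (ℓ : ℝ) * ((1 - η) * (Nat.card G : ℝ)) ≤ (2 * (M : ℝ) + ℓ) * (Nat.card G : ℝ) :=
      le_trans (mul_le_mul_of_nonneg_left hH (by positivity)) hcount'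
    have h6 : 2 * (ℓ : ℝ) * (1 - η) ≤ 2 * (M : ℝ) + ℓ := by
      have : (2 * (ℓ : ℝ) * (1 - η)) * (Nat.card G : ℝ) ≤ (2 * (M : ℝ) + ℓ) * (Nat.card G : ℝ) := by
        linarith
      exact le_of_mul_le_mul_right this hGpos
    have hη2 : (0 : ℝ) < 1 - 2 * η := by linarith
    have h7 : (ℓ : ℝ) ≤ 2 * (M : ℝ) / (1 - 2 * η) := by
      rw [le_div_iff₀ hη2]
      linarith
    have h8 : ℓ ≤ Nat.ceil (2 * (M : ℝ) / (1 - 2 * η)) := by
      have := h7.trans (Nat.le_ceil _)
      exact_mod_cast this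
    exact h4.trans (Nat.pow_le_pow_left h8 4)
  · -- the case `ℓ ∤ |G|`
    refine le_trans ?_ (le_max_left _ _)
    have hG0 : (Nat.card G : k) ≠ 0 := by
      rw [Ne, CharP.cast_eq_zero_iff k ℓ]
      exact hdvd
    have hM : (H.image Fermat.Agent.DS.Grp.AbelianFibre.trDet).card ≤ M := by
      have hsub : H.image Fermat.Agent.DS.Grp.AbelianFibre.trDet ⊆
          P.image (fun p => (-p.coeff 1, p.coeff 0)) := by
        intro x hx
        obtain ⟨h, hh, rfl⟩ := Finset.mem_image.mp hx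
        rw [Finset.mem_image]
        refine ⟨_, hHP h hh, ?_⟩
        rw [Fermat.Agent.DS.Grp.AbelianFibre.trDet, trace_eq_neg_coeff, det_eq_coeff]
      exact le_trans (Finset.card_le_card hsub) (le_trans Finset.card_image_le hP)
    have hmain := Fermat.Agent.DS.Grp.PrimeTo.card_mul_le_field G hG0 H hHG η M hH hM
    have hη60 : (0 : ℝ) < 1 - 60 * η := by linarith
    have h1 : (Nat.card G : ℝ) ≤ 120 * (M : ℝ) / (1 - 60 * η) := by
      rw [le_div_iff₀ hη60]
      exact hmain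
    have := h1.trans (Nat.le_ceil _)
    exact_mod_cast this

/-- **Deligne–Serre, Prop. 7.2.**  For `η < 1/60` and `M` there is a bound `A` such that every
finite semisimple subgroup `G` of `GL₂(k)` (`k` a field of any characteristic `ℓ > 0`) whose traces lie
in the prime field, and which has a subset of proportion `≥ 1 - η` with at most `M` characteristic
polynomials, has at most `A` elements. -/
theorem card_le_of_fewCharpolys (η : ℝ) (hη : η < 1 / 60) (M : ℕ) :
    ∃ A : ℕ, ∀ (ℓ : ℕ) [Fact ℓ.Prime] (k : Type u) [Field k] [CharP k ℓ]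
      (G : Subgroup (GL (Fin 2) k)) [Finite G],
      (∀ w ∈ G, ∃ t : ℤ, (w : Matrix (Fin 2) (Fin 2) k).trace = (t : k)) →
      IsSemisimpleSubgroup G → FewCharpolys G η M → Nat.card G ≤ A :=
  ⟨bound η M, fun ℓ _ k _ _ G _ htr hss hfew => card_le_bound hη M ℓ k G htr hss hfew⟩

end Fermat.Agent.DS.GL2.Main
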