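/-
Programme DS (S48), brick SS (helper55): semisimplification of a two-dimensional representation,
in matrix form.

For `ρ : Γ →* GL₂(k)` there is `ρ' : Γ →* GL₂(k)` with the same characteristic polynomials,
`ker ρ ⊆ ker ρ'`, and whose image is a semisimple subgroup in the sense of
`Fermat.Agent.DS.GL2.Transvections.IsSemisimpleSubgroup` (the hypothesis of Prop. 7.2).
If `ρ(Γ)` has no common eigenvector, `ρ' = ρ`; otherwise `ρ` is conjugate to an upper triangular
representation and `ρ'` is its diagonal part.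
-/
import Mathlib
import Fermat.Agent.DS.GL2.Transvections

set_option autoImplicit false

namespace Fermat.Agent.DS.GL2.SS

open Matrix Polynomial Fermat.Agent.DS.GL2.Transvections

variable {k : Type*} [Field k]

/-- A subgroup without common eigenvector is semisimple. -/
theorem isSemisimpleSubgroup_of_irreducible (G : Subgroup (GL (Fin 2) k))
    (h : ¬ ∃ u : Fin 2 → k, u ≠ 0 ∧
      ∀ g ∈ G, ∃ c : k, (g : Matrix (Fin 2) (Fin 2) k) *ᵥ u = c • u) :
    IsSemisimpleSubgroup G := by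
  intro u hu hstab
  exact absurd ⟨u, hu, hstab⟩ h

theorem diagonal_mulVec_single (d : Fin 2 → k) (j : Fin 2) :
    Matrix.diagonal d *ᵥ (Pi.single j 1 : Fin 2 → k) = d j • (Pi.single j 1 : Fin 2 → k) := by
  ext i
  rw [Matrix.mulVec_diagonal, Pi.smul_apply, smul_eq_mul]
  by_cases hij : i = j
  · subst hij; simp
  · simp [Pi.single_eq_of_ne hij]

/-- A group of diagonal matrices is semisimple. -/
theorem isSemisimpleSubgroup_of_diagonal (G : Subgroup (GL (Fin 2) k))
    (h : ∀ g ∈ G, ∃ d : Fin 2 → k, (g : Matrix (Fin 2) (Fin 2) k) = Matrix.diagonal d) :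
    IsSemisimpleSubgroup G := by
  intro u hu hstab
  -- the two coordinate vectors are common eigenvectors
  have heig : ∀ j : Fin 2, ∀ g ∈ G, ∃ c : k,
      (g : Matrix (Fin 2) (Fin 2) k) *ᵥ (Pi.single j 1 : Fin 2 → k) =
        c • (Pi.single j 1 : Fin 2 → k) := by
    intro j g hg
    obtain ⟨d, hd⟩ := h g hg
    exact ⟨d j, by rw [hd, diagonal_mulVec_single]⟩
  by_cases hu1 : u 1 = 0
  · -- `u` is a multiple of `e₀`; take `e₁`
    refine ⟨Pi.single 1 1, ?_, heig 1⟩
    rintro ⟨c, hc⟩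
    have := congrFun hc 1
    rw [Pi.smul_apply, hu1, smul_zero, Pi.single_eq_same] at this
    exact one_ne_zero this
  · by_cases hu0 : u 0 = 0
    · -- `u` is a multiple of `e₁`; take `e₀`
      refine ⟨Pi.single 0 1, ?_, heig 0⟩
      rintro ⟨c, hc⟩
      have := congrFun hc 0
      rw [Pi.smul_apply, hu0, smul_zero, Pi.single_eq_same] at this
      exact one_ne_zero this
    · -- both coordinates non-zero: every element is scalar, any complement works
      have hscal : ∀ g ∈ G, ∃ c : k, (g : Matrix (Fin 2) (Fin 2) k) = Matrix.diagonal ![c, c] := by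
        intro g hg
        obtain ⟨d, hd⟩ := h g hg
        obtain ⟨c, hc⟩ := hstab g hg
        rw [hd] at hc
        have h0 := congrFun hc 0
        have h1 := congrFun hc 1
        simp only [Matrix.mulVec_diagonal, Pi.smul_apply, smul_eq_mul] at h0 h1
        have e0 : d 0 = c := mul_right_cancel₀ hu0 h0
        have e1 : d 1 = c := mul_right_cancel₀ hu1 h1
        refine ⟨c, ?_⟩
        rw [hd]
        congr 1
        ext i
        fin_cases i
        · exact e0
        · exact e1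
      refine ⟨Pi.single 0 1, ?_, heig 0⟩
      rintro ⟨c, hc⟩
      have := congrFun hc 1
      rw [Pi.smul_apply, smul_eq_mul, Pi.single_eq_of_ne (by decide : (1 : Fin 2) ≠ 0)] at this
      rcases mul_eq_zero.mp this.symm with h0 | h0
      · have h00 := congrFun hc 0
        rw [Pi.smul_apply, h0, zero_smul, Pi.single_eq_same] at h00
        exact one_ne_zero h00
      · exact hu1 h0

variable {Γ : Type*} [Group Γ]

/-- An invertible matrix with prescribed first column `u ≠ 0`. -/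
theorem exists_GL_col (u : Fin 2 → k) (hu : u ≠ 0) :
    ∃ Q : GL (Fin 2) k, (Q : Matrix (Fin 2) (Fin 2) k) *ᵥ (Pi.single 0 1 : Fin 2 → k) = u := by
  by_cases h0 : u 0 = 0
  · have h1 : u 1 ≠ 0 := by
      intro h1
      apply hu
      ext i
      fin_cases i
      · exact h0
      · exact h1
    have hdet : (!![u 0, 1; u 1, 0] : Matrix (Fin 2) (Fin 2) k).det ≠ 0 := by
      rw [Matrix.det_fin_two_of]
      simpa using h1
    refine ⟨Matrix.GeneralLinearGroup.mkOfDetNeZero _ hdet, ?_⟩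
    show (!![u 0, 1; u 1, 0] : Matrix (Fin 2) (Fin 2) k) *ᵥ (Pi.single 0 1 : Fin 2 → k) = u
    rw [Matrix.mulVec_single_one]
    ext i
    fin_cases i <;> rfl
  · have hdet : (!![u 0, 0; u 1, 1] : Matrix (Fin 2) (Fin 2) k).det ≠ 0 := by
      rw [Matrix.det_fin_two_of]
      simpa using h0
    refine ⟨Matrix.GeneralLinearGroup.mkOfDetNeZero _ hdet, ?_⟩
    show (!![u 0, 0; u 1, 1] : Matrix (Fin 2) (Fin 2) k) *ᵥ (Pi.single 0 1 : Fin 2 → k) = u
    rw [Matrix.mulVec_single_one]
    ext i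
    fin_cases i <;> rfl

/-- the diagonal part of an upper triangular representation -/
theorem exists_diagonal_part (ρ₁ : Γ →* GL (Fin 2) k)
    (htri : ∀ g, ((ρ₁ g : GL (Fin 2) k) : Matrix (Fin 2) (Fin 2) k) 1 0 = 0) :
    ∃ ρ' : Γ →* GL (Fin 2) k, ∀ g, ((ρ' g : GL (Fin 2) k) : Matrix (Fin 2) (Fin 2) k) =
      Matrix.diagonal ![((ρ₁ g : GL (Fin 2) k) : Matrix (Fin 2) (Fin 2) k) 0 0,
        ((ρ₁ g : GL (Fin 2) k) : Matrix (Fin 2) (Fin 2) k) 1 1] := by
  let hom₀ : Γ →* Matrix (Fin 2) (Fin 2) k :=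
    { toFun := fun g => Matrix.diagonal ![((ρ₁ g : GL (Fin 2) k) : Matrix (Fin 2) (Fin 2) k) 0 0,
        ((ρ₁ g : GL (Fin 2) k) : Matrix (Fin 2) (Fin 2) k) 1 1]
      map_one' := by
        rw [map_one, Units.val_one]
        ext i j
        fin_cases i <;> fin_cases j <;> simp
      map_mul' := by
        intro x y
        rw [Matrix.diagonal_mul_diagonal, map_mul, Units.val_mul]
        congr 1
        ext i
        fin_cases i
        · simp [Matrix.mul_apply, Fin.sum_univ_two, htri y]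
        · simp [Matrix.mul_apply, Fin.sum_univ_two, htri x] }
  exact ⟨hom₀.toHomUnits, fun g => rfl⟩

/-- **Semisimplification in matrix form**, with the factorisation property. -/
theorem exists_semisimplification' (ρ : Γ →* GL (Fin 2) k) :
    ∃ ρ' : Γ →* GL (Fin 2) k,
      (∀ g, ((ρ' g : GL (Fin 2) k) : Matrix (Fin 2) (Fin 2) k).charpoly =
        ((ρ g : GL (Fin 2) k) : Matrix (Fin 2) (Fin 2) k).charpoly) ∧
      (∀ g, ρ g = 1 → ρ' g = 1) ∧ (∀ g h, ρ g = ρ h → ρ' g = ρ' h) ∧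
      IsSemisimpleSubgroup ρ'.range := by
  by_cases hirr : ∃ u : Fin 2 → k, u ≠ 0 ∧
      ∀ g ∈ ρ.range, ∃ c : k, (g : Matrix (Fin 2) (Fin 2) k) *ᵥ u = c • u
  · obtain ⟨u, hu, hstab⟩ := hirr
    obtain ⟨Q, hQ⟩ := exists_GL_col u hu
    -- `ρ₁ = Q⁻¹ ρ Q` is upper triangular
    set ρ₁ : Γ →* GL (Fin 2) k := (MulAut.conj Q⁻¹).toMonoidHom.comp ρ with hρ₁
    have hρ₁app : ∀ g, ρ₁ g = Q⁻¹ * ρ g * Q := by
      intro g
      show Q⁻¹ * ρ g * Q⁻¹⁻¹ = _
      rw [inv_inv]
    have hQinv : ((Q⁻¹ : GL (Fin 2) k) : Matrix (Fin 2) (Fin 2) k) *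
        (Q : Matrix (Fin 2) (Fin 2) k) = 1 := by
      rw [← Units.val_mul, inv_mul_cancel, Units.val_one]
    have htri : ∀ g, ((ρ₁ g : GL (Fin 2) k) : Matrix (Fin 2) (Fin 2) k) 1 0 = 0 := by
      intro g
      obtain ⟨c, hc⟩ := hstab (ρ g) ⟨g, rfl⟩
      have h1 : ((ρ₁ g : GL (Fin 2) k) : Matrix (Fin 2) (Fin 2) k) *ᵥ
          (Pi.single 0 1 : Fin 2 → k) = c • (Pi.single 0 1 : Fin 2 → k) := by
        rw [hρ₁app, Units.val_mul, Units.val_mul, ← Matrix.mulVec_mulVec, hQ,
          ← Matrix.mulVec_mulVec, hc, Matrix.mulVec_smul, ← hQ, Matrix.mulVec_mulVec, hQinv,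
          Matrix.one_mulVec]
      have h2 := congrFun h1 1
      rw [Matrix.mulVec_single_one] at h2
      simpa using h2
    obtain ⟨ρ', hρ'⟩ := exists_diagonal_part ρ₁ htri
    refine ⟨ρ', ?_, ?_, ?_, ?_⟩
    · intro g
      have e1 : ((ρ g : GL (Fin 2) k) : Matrix (Fin 2) (Fin 2) k).charpoly =
          ((ρ₁ g : GL (Fin 2) k) : Matrix (Fin 2) (Fin 2) k).charpoly := by
        rw [hρ₁app, Units.val_mul, Units.val_mul]
        have := Matrix.charpoly_units_conj' Q ((ρ g : GL (Fin 2) k) : Matrix (Fin 2) (Fin 2) k)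
        rw [← Matrix.coe_units_inv] at this
        exact this.symm
      rw [e1, hρ', Matrix.charpoly_fin_two, Matrix.charpoly_fin_two, Matrix.trace_fin_two,
        Matrix.trace_fin_two, Matrix.det_fin_two, Matrix.det_fin_two, htri g]
      simp
    · intro g hg
      apply Units.ext
      have h1 : ρ₁ g = 1 := by rw [hρ₁app, hg, mul_one, inv_mul_cancel]
      rw [hρ', h1, Units.val_one]
      ext i j
      fin_cases i <;> fin_cases j <;> simp
    · intro g h hgh
      apply Units.ext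
      have h1 : ρ₁ g = ρ₁ h := by rw [hρ₁app, hρ₁app, hgh]
      rw [hρ', hρ', h1]
    · apply isSemisimpleSubgroup_of_diagonal
      rintro _ ⟨g, rfl⟩
      exact ⟨_, hρ' g⟩
  · exact ⟨ρ, fun _ => rfl, fun _ h => h, fun _ _ h => h,
      isSemisimpleSubgroup_of_irreducible _ hirr⟩

/-- **Semisimplification in matrix form.** -/
theorem exists_semisimplification (ρ : Γ →* GL (Fin 2) k) :
    ∃ ρ' : Γ →* GL (Fin 2) k,
      (∀ g, ((ρ' g : GL (Fin 2) k) : Matrix (Fin 2) (Fin 2) k).charpoly =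
        ((ρ g : GL (Fin 2) k) : Matrix (Fin 2) (Fin 2) k).charpoly) ∧
      (∀ g, ρ g = 1 → ρ' g = 1) ∧ IsSemisimpleSubgroup ρ'.range := by
  obtain ⟨ρ', h1, h2, -, h4⟩ := exists_semisimplification' ρ
  exact ⟨ρ', h1, h2, h4⟩

end Fermat.Agent.DS.GL2.SS
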