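/-
Programme DS (S48), brick DS-G (helper55): elementary arithmetic behind the classification of finite
groups acting with exactly two fixed points for every non-identity element (orbit-size bookkeeping).
-/
import Mathlib

set_option autoImplicit false

namespace Fermat.Agent.DS.GL2.Arith

/-- A proper divisor `d` of `N` satisfies `2d = N`, `3d = N` or `4d ≤ N`. -/
theorem proper_divisor_cases {d N : ℕ} (hN : 0 < N) (hd : d ∣ N) (hne : d ≠ N) :
    2 * d = N ∨ 3 * d = N ∨ 4 * d ≤ N := by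
  obtain ⟨e, rfl⟩ := hd
  have he0 : e ≠ 0 := by rintro rfl; simp at hN
  have he1 : e ≠ 1 := by rintro rfl; simp at hne
  have hd0 : 0 < d := Nat.pos_of_mul_pos_right hN
  rcases Nat.lt_or_ge e 4 with h | h
  · interval_cases e
    · exact absurd rfl he0
    · exact absurd rfl he1
    · left; ring
    · right; left; ring
  · right; right
    calc 4 * d = d * 4 := by ring
      _ ≤ d * e := Nat.mul_le_mul_left d h

/-- Core case: `2 d₁ = N`, `d₂ ∈ {N/2, N/3}`, `d₃ ∣ N`, `d₁ + d₂ + d₃ = N + 2`. -/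
theorem core {d₁ d₂ d₃ N : ℕ} (h1 : 2 * d₁ = N) (h2 : 2 * d₂ = N ∨ 3 * d₂ = N)
    (h3 : d₃ ∣ N) (hsum : d₁ + d₂ + d₃ = N + 2) :
    d₂ = 2 ∨ d₃ = 2 ∨ N = 12 ∨ N = 24 ∨ N = 60 := by
  rcases h2 with h2 | h2
  · right; left; omega
  · obtain ⟨e, he⟩ := h3
    -- `6 d₃ = N + 12`
    have h6 : 6 * d₃ = d₃ * e + 12 := by omega
    have he6 : e < 6 := by
      by_contra hge
      simp only [not_lt] at hge
      have : d₃ * 6 ≤ d₃ * e := Nat.mul_le_mul_left d₃ hge
      omega
    interval_cases e <;> omega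

/-- The arithmetic of three proper divisors `d₁, d₂, d₃` of `N` with `d₁ + d₂ + d₃ = N + 2`. -/
theorem three_divisors {d₁ d₂ d₃ N : ℕ} (hN : 0 < N)
    (hd₁ : d₁ ∣ N) (hd₂ : d₂ ∣ N) (hd₃ : d₃ ∣ N)
    (hn₁ : d₁ ≠ N) (hn₂ : d₂ ≠ N) (hn₃ : d₃ ≠ N)
    (hsum : d₁ + d₂ + d₃ = N + 2) :
    (d₁ = 2 ∨ d₂ = 2 ∨ d₃ = 2) ∨ N = 12 ∨ N = 24 ∨ N = 60 := by
  have c₁ := proper_divisor_cases hN hd₁ hn₁
  have c₂ := proper_divisor_cases hN hd₂ hn₂
  have c₃ := proper_divisor_cases hN hd₃ hn₃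
  -- at least one `dᵢ = N/2`
  have hhalf : 2 * d₁ = N ∨ 2 * d₂ = N ∨ 2 * d₃ = N := by
    by_contra hcon
    simp only [not_or] at hcon
    obtain ⟨a, b, c⟩ := hcon
    have h₁ : 3 * d₁ ≤ N := by rcases c₁ with h | h | h <;> omega
    have h₂ : 3 * d₂ ≤ N := by rcases c₂ with h | h | h <;> omega
    have h₃ : 3 * d₃ ≤ N := by rcases c₃ with h | h | h <;> omega
    omega
  rcases hhalf with h | h | h
  · -- `2 d₁ = N`; one of `d₂, d₃` is `N/2` or `N/3`
    have hsec : (2 * d₂ = N ∨ 3 * d₂ = N) ∨ (2 * d₃ = N ∨ 3 * d₃ = N) := by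
      by_contra hcon
      simp only [not_or] at hcon
      obtain ⟨⟨a, b⟩, ⟨c, d⟩⟩ := hcon
      have h₂ : 4 * d₂ ≤ N := by rcases c₂ with h | h | h <;> omega
      have h₃ : 4 * d₃ ≤ N := by rcases c₃ with h | h | h <;> omega
      omega
    rcases hsec with hs | hs
    · rcases core h hs hd₃ hsum with r | r | r
      · exact Or.inl (Or.inr (Or.inl r))
      · exact Or.inl (Or.inr (Or.inr r))
      · exact Or.inr r
    · rcases core h hs hd₂ (by omega) with r | r | r
      · exact Or.inl (Or.inr (Or.inr r))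
      · exact Or.inl (Or.inr (Or.inl r))
      · exact Or.inr r
  · have hsec : (2 * d₁ = N ∨ 3 * d₁ = N) ∨ (2 * d₃ = N ∨ 3 * d₃ = N) := by
      by_contra hcon
      simp only [not_or] at hcon
      obtain ⟨⟨a, b⟩, ⟨c, d⟩⟩ := hcon
      have h₂ : 4 * d₁ ≤ N := by rcases c₁ with h | h | h <;> omega
      have h₃ : 4 * d₃ ≤ N := by rcases c₃ with h | h | h <;> omega
      omega
    rcases hsec with hs | hs
    · rcases core h hs hd₃ (by omega) with r | r | r
      · exact Or.inl (Or.inl r)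
      · exact Or.inl (Or.inr (Or.inr r))
      · exact Or.inr r
    · rcases core h hs hd₁ (by omega) with r | r | r
      · exact Or.inl (Or.inr (Or.inr r))
      · exact Or.inl (Or.inl r)
      · exact Or.inr r
  · have hsec : (2 * d₁ = N ∨ 3 * d₁ = N) ∨ (2 * d₂ = N ∨ 3 * d₂ = N) := by
      by_contra hcon
      simp only [not_or] at hcon
      obtain ⟨⟨a, b⟩, ⟨c, d⟩⟩ := hcon
      have h₂ : 4 * d₁ ≤ N := by rcases c₁ with h | h | h <;> omega
      have h₃ : 4 * d₂ ≤ N := by rcases c₂ with h | h | h <;> omega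
      omega
    rcases hsec with hs | hs
    · rcases core h hs hd₂ (by omega) with r | r | r
      · exact Or.inl (Or.inl r)
      · exact Or.inl (Or.inr (Or.inl r))
      · exact Or.inr r
    · rcases core h hs hd₁ (by omega) with r | r | r
      · exact Or.inl (Or.inr (Or.inl r))
      · exact Or.inl (Or.inl r)
      · exact Or.inr r

end Fermat.Agent.DS.GL2.Arith
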