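/-
Programme DS (S48), brick DS-G (helper55): the case `ℓ ∣ |G|` of Deligne–Serre, Prop. 7.2.

If `G ⊆ GL₂(𝔽_ℓ)` is semisimple of order divisible by `ℓ`, and a proportion `≥ 1 - η` of its elements
have their characteristic polynomial in a set of `M` polynomials, then `ℓ ≤ 1 + 2 M / (1 - η)`, hence
`|G| ≤ ℓ⁴` is bounded in terms of `η` and `M`.
-/
import Mathlib
import Fermat.Agent.DS.GL2.Transvections
import Fermat.Agent.DS.GL2.Fibres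

set_option autoImplicit false

namespace Fermat.Agent.DS.GL2.DvdCase

open Matrix Polynomial Fermat.Agent.DS.GL2.Transvections

/-- A subset `H` of `G` of proportion at least `1 - η` on which the characteristic polynomial takes
its values in a set of at most `M` polynomials. -/
def FewCharpolys {ℓ : ℕ} (G : Subgroup (GL (Fin 2) (ZMod ℓ))) (η : ℝ) (M : ℕ) : Prop :=
  ∃ (H : Finset (GL (Fin 2) (ZMod ℓ))) (P : Finset (ZMod ℓ)[X]),
    (∀ h ∈ H, h ∈ G) ∧ (1 - η) * (Nat.card G : ℝ) ≤ (H.card : ℝ) ∧ P.card ≤ M ∧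
      ∀ h ∈ H, (h : Matrix (Fin 2) (Fin 2) (ZMod ℓ)).charpoly ∈ P

variable {ℓ : ℕ} [Fact ℓ.Prime]

theorem card_GL_le (G : Subgroup (GL (Fin 2) (ZMod ℓ))) : Nat.card G ≤ ℓ ^ 4 := by
  have h1 : Nat.card G ≤ Nat.card (GL (Fin 2) (ZMod ℓ)) :=
    Nat.card_le_card_of_injective _ Subtype.val_injective
  have h2 : Nat.card (GL (Fin 2) (ZMod ℓ)) ≤ Nat.card (Matrix (Fin 2) (Fin 2) (ZMod ℓ)) :=
    Nat.card_le_card_of_injective (fun g => (g : Matrix (Fin 2) (Fin 2) (ZMod ℓ)))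
      (fun _ _ h => Units.ext h)
  have h3 : Nat.card (Matrix (Fin 2) (Fin 2) (ZMod ℓ)) = ℓ ^ 4 := by
    have : Nat.card (Matrix (Fin 2) (Fin 2) (ZMod ℓ)) = Nat.card (Fin 2 → Fin 2 → ZMod ℓ) := rfl
    rw [this, Nat.card_eq_fintype_card, Fintype.card_fun, Fintype.card_fun, ZMod.card,
      Fintype.card_fin, ← pow_mul]
  omega

theorem card_finset_le (H : Finset (GL (Fin 2) (ZMod ℓ))) (P : Finset (ZMod ℓ)[X])
    (hP : ∀ h ∈ H, (h : Matrix (Fin 2) (Fin 2) (ZMod ℓ)).charpoly ∈ P) :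
    H.card ≤ 2 * (ℓ * ℓ) * P.card := by
  classical
  have h1 := Fibres.card_le_of_image H
  rw [ZMod.card] at h1
  refine h1.trans (Nat.mul_le_mul_left _ (Finset.card_le_card ?_))
  intro p hp
  obtain ⟨h, hh, rfl⟩ := Finset.mem_image.mp hp
  exact hP h hh

/-- In the case `ℓ ∣ |G|`, the prime `ℓ` is bounded. -/
theorem prime_le_of_dvd {η : ℝ} (hη : η < 1) {M : ℕ} (G : Subgroup (GL (Fin 2) (ZMod ℓ)))
    (hss : IsSemisimpleSubgroup G) (hdvd : ℓ ∣ Nat.card G) (hfew : FewCharpolys G η M) :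
    (ℓ : ℝ) ≤ 1 + 2 * M / (1 - η) := by
  obtain ⟨H, P, -, hH, hP, hHP⟩ := hfew
  have hη' : 0 < 1 - η := by linarith
  have hℓ : (1 : ℝ) ≤ ℓ := by exact_mod_cast (Fact.out : ℓ.Prime).one_lt.le
  have h1 : ((ℓ * (ℓ - 1) * ℓ : ℕ) : ℝ) ≤ (Nat.card G : ℝ) := by
    exact_mod_cast card_ge_of_dvd G hss hdvd
  have h2 : (H.card : ℝ) ≤ 2 * (ℓ * ℓ) * M := by
    have := (card_finset_le H P hHP).trans (Nat.mul_le_mul_left _ hP)
    exact_mod_cast this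
  have h3 : ((ℓ * (ℓ - 1) * ℓ : ℕ) : ℝ) = (ℓ : ℝ) * ((ℓ : ℝ) - 1) * ℓ := by
    rw [Nat.cast_mul, Nat.cast_mul, Nat.cast_sub (Fact.out : ℓ.Prime).one_lt.le, Nat.cast_one]
  rw [h3] at h1
  have h4 : (1 - η) * ((ℓ : ℝ) * ((ℓ : ℝ) - 1) * ℓ) ≤ 2 * (ℓ * ℓ) * M :=
    (mul_le_mul_of_nonneg_left h1 hη'.le).trans (hH.trans h2)
  have hℓ2 : (0 : ℝ) < ℓ * ℓ := by positivity
  have h5 : (1 - η) * ((ℓ : ℝ) - 1) ≤ 2 * M := by
    have : ((1 - η) * ((ℓ : ℝ) - 1)) * (ℓ * ℓ) ≤ (2 * M) * (ℓ * ℓ) := by linarith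
    exact le_of_mul_le_mul_right this hℓ2
  have h6 : (ℓ : ℝ) - 1 ≤ 2 * M / (1 - η) := by
    rw [le_div_iff₀ hη']
    linarith
  linarith

/-- **The case `ℓ ∣ |G|` of Deligne–Serre, Prop. 7.2.** -/
theorem card_le_of_dvd {η : ℝ} (hη : η < 1) {M : ℕ} (G : Subgroup (GL (Fin 2) (ZMod ℓ)))
    (hss : IsSemisimpleSubgroup G) (hdvd : ℓ ∣ Nat.card G) (hfew : FewCharpolys G η M) :
    Nat.card G ≤ (Nat.ceil (1 + 2 * (M : ℝ) / (1 - η))) ^ 4 := by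
  have h1 := prime_le_of_dvd hη G hss hdvd hfew
  have h2 : ℓ ≤ Nat.ceil (1 + 2 * (M : ℝ) / (1 - η)) := by
    have := h1.trans (Nat.le_ceil _)
    exact_mod_cast this
  exact (card_GL_le G).trans (Nat.pow_le_pow_left h2 4)

end Fermat.Agent.DS.GL2.DvdCase
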