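/-
Programme DS (S48), brick DS-G (helper55), part G3a.

Crude count of the fibres of the characteristic polynomial on `GL₂(K)`, `K` a finite field:
at most `2 |K|²` elements have a given characteristic polynomial.
-/
import Mathlib

set_option autoImplicit false

namespace Fermat.Agent.DS.GL2.Fibres

open Matrix Polynomial

variable {K : Type*} [Field K]

theorem trace_eq_of_charpoly_eq {A B : Matrix (Fin 2) (Fin 2) K} (h : A.charpoly = B.charpoly) :
    A.trace = B.trace := by
  rw [Matrix.trace_eq_neg_charpoly_coeff, Matrix.trace_eq_neg_charpoly_coeff, h]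

theorem det_eq_of_charpoly_eq {A B : Matrix (Fin 2) (Fin 2) K} (h : A.charpoly = B.charpoly) :
    A.det = B.det := by
  rw [Matrix.det_eq_sign_charpoly_coeff, Matrix.det_eq_sign_charpoly_coeff, h]

/-- the "code" of a `2 × 2` matrix: enough to recover it once trace and determinant are known -/
def code [DecidableEq K] (A : Matrix (Fin 2) (Fin 2) K) : Bool × K × K :=
  (decide (A 0 1 = 0), A 0 0, if A 0 1 = 0 then A 1 0 else A 0 1)

theorem eq_of_code_eq [DecidableEq K] {A B : Matrix (Fin 2) (Fin 2) K}
    (htr : A.trace = B.trace) (hdet : A.det = B.det) (hc : code A = code B) : A = B := by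
  rw [Matrix.trace_fin_two, Matrix.trace_fin_two] at htr
  rw [Matrix.det_fin_two, Matrix.det_fin_two] at hdet
  simp only [code, Prod.mk.injEq, decide_eq_decide] at hc
  obtain ⟨h1, h2, h3⟩ := hc
  have h11 : A 1 1 = B 1 1 := by rw [h2] at htr; exact add_left_cancel htr
  by_cases hA : A 0 1 = 0
  · have hB : B 0 1 = 0 := h1.mp hA
    rw [if_pos hA, if_pos hB] at h3
    ext i j
    fin_cases i <;> fin_cases j
    · exact h2
    · exact hA.trans hB.symm
    · exact h3
    · exact h11
  · have hB : B 0 1 ≠ 0 := fun h => hA (h1.mpr h)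
    rw [if_neg hA, if_neg hB] at h3
    have h10 : A 1 0 = B 1 0 := by
      rw [h2, h11, h3] at hdet
      have : B 0 1 * A 1 0 = B 0 1 * B 1 0 := by linear_combination -hdet
      exact mul_left_cancel₀ hB this
    ext i j
    fin_cases i <;> fin_cases j
    · exact h2
    · exact h3
    · exact h10
    · exact h11

variable [Fintype K] [DecidableEq K]

/-- At most `2 |K|²` elements of `GL₂(K)` have a given characteristic polynomial. -/
theorem card_fibre_le (H : Finset (GL (Fin 2) K)) (p : K[X]) :
    (H.filter (fun g : GL (Fin 2) K => (g : Matrix (Fin 2) (Fin 2) K).charpoly = p)).card ≤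
      2 * (Fintype.card K * Fintype.card K) := by
  have h := Finset.card_le_card_of_injOn (s := H.filter (fun g : GL (Fin 2) K => (g : Matrix (Fin 2) (Fin 2) K).charpoly = p))
    (t := (Finset.univ : Finset (Bool × K × K)))
    (fun g : GL (Fin 2) K => code (g : Matrix (Fin 2) (Fin 2) K)) (fun _ _ => Finset.mem_univ _) ?_
  · rw [Finset.card_univ, Fintype.card_prod, Fintype.card_prod, Fintype.card_bool] at h
    exact h
  · intro g hg g' hg' hc
    rw [Finset.mem_coe, Finset.mem_filter] at hg hg'
    have hp : (g : Matrix (Fin 2) (Fin 2) K).charpoly = (g' : Matrix (Fin 2) (Fin 2) K).charpoly :=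
      hg.2.trans hg'.2.symm
    exact Units.ext (eq_of_code_eq (trace_eq_of_charpoly_eq hp) (det_eq_of_charpoly_eq hp) hc)

/-- A finite set of elements of `GL₂(K)` with few characteristic polynomials is small. -/
theorem card_le_of_image (H : Finset (GL (Fin 2) K)) :
    H.card ≤ 2 * (Fintype.card K * Fintype.card K) *
      (H.image (fun g : GL (Fin 2) K => (g : Matrix (Fin 2) (Fin 2) K).charpoly)).card :=
  Finset.card_le_mul_card_image H _ (fun p _ => card_fibre_le H p)

end Fermat.Agent.DS.GL2.Fibres
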