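/-
Programme DS (S48), brick DS-G (helper55).

Finite groups acting on a finite set such that every non-identity element has exactly two fixed
points (the situation of a finite subgroup of `PGL₂` of order prime to the characteristic acting on
the projective line).  Orbit counting (Burnside) gives the classical trichotomy:

* the group fixes two points, or
* a subgroup of index two fixes two points, or
* the group has order `12`, `24` or `60`.
-/
import Mathlib
import Fermat.Agent.DS.GL2.Arith

set_option autoImplicit false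

namespace Fermat.Agent.DS.GL2.OrbitCount

open MulAction

/-- Every non-identity element has exactly two fixed points. -/
def TwoFixed (Γ X : Type*) [Group Γ] [MulAction Γ X] : Prop :=
  ∀ g : Γ, g ≠ 1 → Nat.card (fixedBy X g) = 2

section

variable {Γ X : Type*} [Group Γ] [MulAction Γ X]

/-- size of the orbit attached to an element of the orbit space -/
noncomputable def orbSize (ω : orbitRel.Quotient Γ X) : ℕ := (orbit Γ ω.out).ncard

theorem orbSize_eq_index (ω : orbitRel.Quotient Γ X) :
    orbSize ω = (stabilizer Γ ω.out).index := (index_stabilizer Γ ω.out).symm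

/-- The hypothesis passes to subgroups. -/
theorem TwoFixed.subgroup (h : TwoFixed Γ X) (C : Subgroup Γ) : TwoFixed C X := by
  intro c hc
  have hc' : (c : Γ) ≠ 1 := fun h1 => hc (Subtype.ext h1)
  have := h (c : Γ) hc'
  exact this

variable [Finite Γ] [Finite X]

theorem orbSize_dvd (ω : orbitRel.Quotient Γ X) : orbSize ω ∣ Nat.card Γ := by
  rw [orbSize_eq_index]; exact Subgroup.index_dvd_card _

theorem orbSize_pos (ω : orbitRel.Quotient Γ X) : 0 < orbSize ω := by
  rw [orbSize_eq_index]
  exact Nat.pos_of_ne_zero (Subgroup.index_ne_zero_of_finite)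

theorem card_eq_sum_orbSize [Fintype (orbitRel.Quotient Γ X)] :
    Nat.card X = ∑ ω : orbitRel.Quotient Γ X, orbSize ω := by
  classical
  have e := selfEquivSigmaOrbits Γ X
  rw [Nat.card_congr e, Nat.card_sigma]
  refine Finset.sum_congr rfl fun ω _ => ?_
  rw [orbSize, Nat.card_coe_set_eq]

/-- **Orbit counting**: `∑ (N - |orbit|) = 2 N - 2`, written additively. -/
theorem sum_orbSize_add (h : TwoFixed Γ X) [Fintype (orbitRel.Quotient Γ X)] :
    (∑ ω : orbitRel.Quotient Γ X, orbSize ω) + 2 * (Nat.card Γ - 1) =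
      Fintype.card (orbitRel.Quotient Γ X) * Nat.card Γ := by
  classical
  letI : Fintype Γ := Fintype.ofFinite Γ
  letI : Fintype X := Fintype.ofFinite X
  have hB := sum_card_fixedBy_eq_card_orbits_mul_card_group Γ X
  rw [← card_eq_sum_orbSize, Nat.card_eq_fintype_card (α := Γ), Nat.card_eq_fintype_card (α := X),
    ← hB]
  rw [← Finset.add_sum_erase Finset.univ _ (Finset.mem_univ (1 : Γ))]
  congr 1
  · apply Fintype.card_congr
    exact (Equiv.subtypeUnivEquiv (fun x => by simp)).symm
  · rw [Finset.sum_congr rfl (g := fun _ => 2)]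
    · rw [Finset.sum_const, Finset.card_erase_of_mem (Finset.mem_univ _), Finset.card_univ,
        smul_eq_mul, mul_comm]
    · intro g hg
      have hg1 : g ≠ 1 := Finset.ne_of_mem_erase hg
      rw [← Nat.card_eq_fintype_card]
      exact h g hg1

/-! ### The non-free orbits -/

/-- the orbits of size different from the order of the group -/
noncomputable def nonFree (Γ X : Type*) [Group Γ] [MulAction Γ X]
    [Fintype (orbitRel.Quotient Γ X)] : Finset (orbitRel.Quotient Γ X) :=
  letI := Classical.decPred fun ω : orbitRel.Quotient Γ X => orbSize ω ≠ Nat.card Γ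
  Finset.univ.filter fun ω => orbSize ω ≠ Nat.card Γ

theorem mem_nonFree [Fintype (orbitRel.Quotient Γ X)] {ω : orbitRel.Quotient Γ X} :
    ω ∈ nonFree Γ X ↔ orbSize ω ≠ Nat.card Γ := by
  classical
  simp [nonFree]

theorem orbSize_le (ω : orbitRel.Quotient Γ X) : orbSize ω ≤ Nat.card Γ :=
  Nat.le_of_dvd Nat.card_pos (orbSize_dvd ω)

theorem two_mul_orbSize_le [Fintype (orbitRel.Quotient Γ X)] {ω : orbitRel.Quotient Γ X}
    (hω : ω ∈ nonFree Γ X) : 2 * orbSize ω ≤ Nat.card Γ := by
  rcases Arith.proper_divisor_cases Nat.card_pos (orbSize_dvd ω) (mem_nonFree.mp hω) with h | h | h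
    <;> omega

/-- **Orbit counting**, second form. -/
theorem sum_nonFree (h : TwoFixed Γ X) [Fintype (orbitRel.Quotient Γ X)] :
    ∑ ω ∈ nonFree Γ X, (Nat.card Γ - orbSize ω) = 2 * (Nat.card Γ - 1) := by
  classical
  have h1 : ∑ ω ∈ nonFree Γ X, (Nat.card Γ - orbSize ω) =
      ∑ ω : orbitRel.Quotient Γ X, (Nat.card Γ - orbSize ω) := by
    apply Finset.sum_subset (Finset.subset_univ _)
    intro ω _ hω
    rw [mem_nonFree, not_not] at hω
    rw [hω, Nat.sub_self]
  have h2 : ∑ ω : orbitRel.Quotient Γ X, (Nat.card Γ - orbSize ω) +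
      ∑ ω : orbitRel.Quotient Γ X, orbSize ω =
      Fintype.card (orbitRel.Quotient Γ X) * Nat.card Γ := by
    rw [← Finset.sum_add_distrib, Finset.sum_congr rfl (g := fun _ => Nat.card Γ)]
    · rw [Finset.sum_const, Finset.card_univ, smul_eq_mul]
    · intro ω _
      exact Nat.sub_add_cancel (orbSize_le ω)
  have h3 := sum_orbSize_add h
  rw [h1]
  omega

/-- The combinatorial core of the classification. -/
theorem nonFree_cases (h : TwoFixed Γ X) (hN : 2 ≤ Nat.card Γ)
    [Fintype (orbitRel.Quotient Γ X)] :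
    ((nonFree Γ X).card = 2 ∧ ∀ ω ∈ nonFree Γ X, orbSize ω = 1) ∨
    ((nonFree Γ X).card = 3 ∧ (∀ ω ∈ nonFree Γ X, 2 ≤ orbSize ω) ∧
      ((∃ ω ∈ nonFree Γ X, orbSize ω = 2) ∨
        Nat.card Γ = 12 ∨ Nat.card Γ = 24 ∨ Nat.card Γ = 60)) := by
  classical
  have hsum := sum_nonFree h
  set N := Nat.card Γ with hNdef
  set S := nonFree Γ X with hS
  -- bounds on each term
  have hlow : ∀ ω ∈ S, N ≤ 2 * (N - orbSize ω) := by
    intro ω hω
    have := two_mul_orbSize_le hω
    omega
  have hup : ∀ ω ∈ S, N - orbSize ω ≤ N - 1 := by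
    intro ω _
    have := orbSize_pos ω
    omega
  have hcard_le : S.card * N ≤ 2 * (2 * (N - 1)) := by
    rw [← hsum, Finset.mul_sum, ← smul_eq_mul, ← Finset.sum_const]
    exact Finset.sum_le_sum hlow
  have hcard_ge : 2 * (N - 1) ≤ S.card * (N - 1) := by
    rw [← hsum, ← smul_eq_mul, ← Finset.sum_const]
    exact Finset.sum_le_sum hup
  have hc3 : S.card ≤ 3 := by
    by_contra hcon
    have h4 : 4 ≤ S.card := by omega
    have : 4 * N ≤ S.card * N := Nat.mul_le_mul_right N h4
    omega
  have hc2 : 2 ≤ S.card := by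
    by_contra hcon
    have h1 : S.card ≤ 1 := by omega
    have : S.card * (N - 1) ≤ 1 * (N - 1) := Nat.mul_le_mul_right (N - 1) h1
    omega
  have hdvd : ∀ ω : orbitRel.Quotient Γ X, orbSize ω ∣ N := fun ω => orbSize_dvd ω
  have hpos : ∀ ω : orbitRel.Quotient Γ X, 0 < orbSize ω := fun ω => orbSize_pos ω
  have hle : ∀ ω : orbitRel.Quotient Γ X, orbSize ω ≤ N := fun ω => orbSize_le ω
  rcases Nat.lt_or_ge S.card 3 with hlt | hge
  · -- two non-free orbits
    left
    have hc : S.card = 2 := by omega
    refine ⟨hc, ?_⟩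
    obtain ⟨a, b, hab, hSab⟩ := Finset.card_eq_two.mp hc
    rw [hSab, Finset.sum_pair hab] at hsum
    intro ω hω
    rw [hSab] at hω
    have ha := hpos a
    have hb := hpos b
    have ha' := hle a
    have hb' := hle b
    rcases Finset.mem_insert.mp hω with rfl | hω
    · omega
    · rw [Finset.mem_singleton] at hω
      subst hω
      omega
  · right
    have hc : S.card = 3 := by omega
    obtain ⟨a, b, c, hab, hac, hbc, hSabc⟩ := Finset.card_eq_three.mp hc
    have haS : a ∈ S := by rw [hSabc]; simp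
    have hbS : b ∈ S := by rw [hSabc]; simp
    have hcS : c ∈ S := by rw [hSabc]; simp
    have ha2 := two_mul_orbSize_le haS
    have hb2 := two_mul_orbSize_le hbS
    have hc2' := two_mul_orbSize_le hcS
    have hsum' : orbSize a + orbSize b + orbSize c = N + 2 := by
      rw [hSabc, Finset.sum_insert (by simp [hab, hac]), Finset.sum_pair hbc] at hsum
      have ha' := hle a
      have hb' := hle b
      have hc' := hle c
      omega
    have hall : ∀ ω ∈ S, 2 ≤ orbSize ω := by
      intro ω hω
      have ha := hpos a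
      have hb := hpos b
      have hc' := hpos c
      rw [hSabc] at hω
      simp only [Finset.mem_insert, Finset.mem_singleton] at hω
      rcases hω with rfl | rfl | rfl <;> omega
    refine ⟨hc, hall, ?_⟩
    have hna : orbSize a ≠ N := mem_nonFree.mp haS
    have hnb : orbSize b ≠ N := mem_nonFree.mp hbS
    have hnc : orbSize c ≠ N := mem_nonFree.mp hcS
    rcases Arith.three_divisors (by omega) (hdvd a) (hdvd b) (hdvd c) hna hnb hnc hsum' with
      (h2 | h2 | h2) | h2
    · exact Or.inl ⟨a, haS, h2⟩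
    · exact Or.inl ⟨b, hbS, h2⟩
    · exact Or.inl ⟨c, hcS, h2⟩
    · exact Or.inr h2

/-! ### Fixed points -/

omit [Finite Γ] [Finite X] in
theorem smul_out_eq_of_orbSize_eq_one {ω : orbitRel.Quotient Γ X} (h1 : orbSize ω = 1) (g : Γ) :
    g • ω.out = ω.out := by
  rw [orbSize, Set.ncard_eq_one] at h1
  obtain ⟨a, ha⟩ := h1
  have h1 : ω.out ∈ orbit Γ ω.out := mem_orbit_self _
  have h2 : g • ω.out ∈ orbit Γ ω.out := mem_orbit _ _
  rw [ha, Set.mem_singleton_iff] at h1 h2
  rw [h2, h1]

omit [Finite Γ] [Finite X] in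
theorem orbSize_mk_eq_one {x : X} (hx : ∀ g : Γ, g • x = x) :
    orbSize (Quotient.mk'' x : orbitRel.Quotient Γ X) = 1 := by
  have hout : (Quotient.mk'' x : orbitRel.Quotient Γ X).out ∈ orbit Γ x := by
    have := Quotient.out_eq' (Quotient.mk'' x : orbitRel.Quotient Γ X)
    rw [Quotient.eq''] at this
    exact this
  obtain ⟨g, hg⟩ := hout
  have hout' : (Quotient.mk'' x : orbitRel.Quotient Γ X).out = x := by
    rw [← hg]; exact hx g
  rw [orbSize, hout', Set.ncard_eq_one]
  refine ⟨x, Set.eq_singleton_iff_unique_mem.mpr ⟨mem_orbit_self x, ?_⟩⟩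
  rintro y ⟨g, rfl⟩
  exact hx g

/-- If the whole group fixes a point, it fixes a second one. -/
theorem exists_second_fixed (h : TwoFixed Γ X) (hN : 2 ≤ Nat.card Γ) {x : X}
    (hx : ∀ g : Γ, g • x = x) : ∃ y : X, y ≠ x ∧ ∀ g : Γ, g • y = y := by
  classical
  letI : Fintype (orbitRel.Quotient Γ X) := Fintype.ofFinite _
  set ω₀ : orbitRel.Quotient Γ X := Quotient.mk'' x with hω₀
  have h1 : orbSize ω₀ = 1 := orbSize_mk_eq_one hx
  have hmem : ω₀ ∈ nonFree Γ X := by rw [mem_nonFree, h1]; omega
  rcases nonFree_cases h hN with ⟨hc, hall⟩ | ⟨_, hall, _⟩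
  · obtain ⟨a, b, hab, hSab⟩ := Finset.card_eq_two.mp hc
    -- pick the element of `S` different from `ω₀`
    have : ∃ ω₁ ∈ nonFree Γ X, ω₁ ≠ ω₀ := by
      by_cases ha : a = ω₀
      · exact ⟨b, by rw [hSab]; simp, fun hb => hab (ha.trans hb.symm)⟩
      · exact ⟨a, by rw [hSab]; simp, ha⟩
    obtain ⟨ω₁, hω₁, hne⟩ := this
    refine ⟨ω₁.out, ?_, fun g => smul_out_eq_of_orbSize_eq_one (hall ω₁ hω₁) g⟩
    intro hxy
    apply hne
    rw [hω₀, ← hxy]
    exact (Quotient.out_eq' ω₁).symm
  · have := hall ω₀ hmem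
    omega

/-- **Classification**: a finite group acting on a finite set in such a way that every non-identity
element has exactly two fixed points fixes two points, or has a subgroup of index two fixing two
points, or has order `12`, `24` or `60`. -/
theorem classification (h : TwoFixed Γ X) (hN : 2 ≤ Nat.card Γ) :
    (∃ x y : X, x ≠ y ∧ ∀ g : Γ, g • x = x ∧ g • y = y) ∨
    (∃ C : Subgroup Γ, C.index = 2 ∧ ∃ x y : X, x ≠ y ∧ ∀ g ∈ C, g • x = x ∧ g • y = y) ∨
    Nat.card Γ = 12 ∨ Nat.card Γ = 24 ∨ Nat.card Γ = 60 := by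
  classical
  letI : Fintype (orbitRel.Quotient Γ X) := Fintype.ofFinite _
  rcases nonFree_cases h hN with ⟨hc, hall⟩ | ⟨hc, hall, hcase⟩
  · left
    obtain ⟨a, b, hab, hSab⟩ := Finset.card_eq_two.mp hc
    have ha : a ∈ nonFree Γ X := by rw [hSab]; simp
    have hb : b ∈ nonFree Γ X := by rw [hSab]; simp
    refine ⟨a.out, b.out, ?_, fun g => ⟨smul_out_eq_of_orbSize_eq_one (hall a ha) g,
      smul_out_eq_of_orbSize_eq_one (hall b hb) g⟩⟩
    intro hout
    apply hab
    rw [← Quotient.out_eq' a, ← Quotient.out_eq' b, hout]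
  · rcases hcase with ⟨ω, hω, h2⟩ | hcase
    · right; left
      set x := ω.out with hx
      refine ⟨stabilizer Γ x, by rw [← orbSize_eq_index, h2], ?_⟩
      -- the stabilizer has order at least two
      have hidx : (stabilizer Γ x).index = 2 := by rw [← orbSize_eq_index, h2]
      have hcardC : 2 ≤ Nat.card (stabilizer Γ x) := by
        have hmul := Subgroup.card_mul_index (stabilizer Γ x)
        rw [hidx] at hmul
        -- `N ≥ 4` since three orbit sizes `≥ 2` add up to `N + 2`
        obtain ⟨a, b, c, hab, hac, hbc, hSabc⟩ := Finset.card_eq_three.mp hc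
        have hsum := sum_nonFree h
        rw [hSabc, Finset.sum_insert (by simp [hab, hac]), Finset.sum_pair hbc] at hsum
        have haS : a ∈ nonFree Γ X := by rw [hSabc]; simp
        have hbS : b ∈ nonFree Γ X := by rw [hSabc]; simp
        have hcS : c ∈ nonFree Γ X := by rw [hSabc]; simp
        have ha2 := hall a haS
        have hb2 := hall b hbS
        have hc2 := hall c hcS
        have ha' := orbSize_le a
        have hb' := orbSize_le b
        have hc' := orbSize_le c
        omega
      have hfix : ∀ c : stabilizer Γ x, c • x = x := fun c => c.2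
      obtain ⟨y, hyx, hy⟩ := exists_second_fixed (h.subgroup (stabilizer Γ x)) hcardC hfix
      refine ⟨x, y, hyx.symm, fun g hg => ⟨hg, hy ⟨g, hg⟩⟩⟩
    · right; right; exact hcase

end

end Fermat.Agent.DS.GL2.OrbitCount
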